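import Fermat.Agent.MC.X0.Field
import Fermat.Agent.GR.RatInstances
import Fermat.Agent.JAC.ConstExtFunctor
import Fermat.Agent.JAC.FieldOfDef
import Fermat.Prelude.Def_ModularCurve_HeckeModule
import Fermat.Prelude.Thm_ModularCurve_coeffMap_qExpand

/-!
# `J₀(N)` over `ℚ̄` and over `ℂ`

The function fields, the Hecke operators as pushforward after pullback, and the Weil pairing with
its Galois equivariance, nondegeneracy and the adjointness of the Hecke operators. `Fricke` carries
these over to the twisted pairing, which feeds `GR.ESInput` (`ESParts`); the general levels of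
`JAC/XH/Maps` use the embedding `embC` defined here.
-/

set_option autoImplicit false

attribute [local instance 10000] SubalgebraClass.toAlgebra HahnSeries.powerSeriesAlgebra

noncomputable section

open ModularCurve

namespace Fermat.JAC.X0

open Fermat.FF Fermat.MC

/-- Notation for `ℚ̄`. -/
abbrev Qbar : Type := AlgebraicClosure ℚ

variable (N : ℕ) [NeZero N]

/-- A fixed embedding of `ℚ̄` in `ℂ`. -/
def embC : Qbar →+* ℂ :=
  (IsAlgClosed.lift : Qbar →ₐ[ℚ] ℂ).toRingHom

/-- The algebra structure of the embedding. -/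
instance algebraQbarC : Algebra Qbar ℂ := embC.toAlgebra

/-- The modular function field over `ℚ̄` is a function field of one variable. -/
instance isFunctionFieldBar : IsFunctionField Qbar (modularFunctionFieldBar N) :=
  isFunctionField_FN N embC

/-- The modular function field over `ℂ` is a function field of one variable. -/
instance isFunctionFieldC : IsFunctionField ℂ (FN N ℂ) :=
  isFunctionField_FN N (RingHom.id ℂ)

/-- The functions over `ℚ̄` inside those over `ℂ`. -/
instance algebraFN : Algebra (modularFunctionFieldBar N) (FN N ℂ) :=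
  lbcAlgebra Qbar ℂ (modularFunctionFieldFull N)

/-- The field over `ℂ` is the constant extension of the one over `ℚ̄`. -/
instance isConstExtFN : IsConstExt Qbar ℂ (modularFunctionFieldBar N) (FN N ℂ) :=
  isConstExt_lbc Qbar ℂ (modularFunctionFieldFull N)

/-- The Hecke correspondence is pushforward after pullback. -/
theorem heckeOperatorAlong_eq_comp (L : Type*) [Field L] [Algebra ℚ L] [IsAlgClosed L] (ℓ : ℕ)
    [NeZero ℓ] [IsFunctionField L (FN N L)] [IsFunctionField L (FN (N * ℓ) L)] :
    heckeOperatorAlong L N ℓ =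
      (pushPic (heckeAlphaBar L N ℓ)).comp (pullPic (heckeBetaBar L N ℓ)) := by
  have hα : HeckeAlphaBarIntegral L N ℓ := isIntegral_toRingHom (heckeAlphaBar L N ℓ)
  have hβ : HeckeBetaBarIntegral L N ℓ := isIntegral_toRingHom (heckeBetaBar L N ℓ)
  refine (ModularCurve.heckeOperatorAlong_eq hα hβ (fundamentalIdentityAlong _ hβ) (finiteAlong _)
    (normFormulaAlong _ _)).trans ?_
  exact correspondence_eq _ _ _ _ _ _ _

/-- On `J₀(N)` the operator `T ℓ` is pushforward along `α` after pullback along `β`. -/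
theorem heckeOperatorBar_eq (ℓ : Nat.Primes) (x : JZero N) :
    haveI : NeZero (ℓ : ℕ) := ⟨ℓ.2.ne_zero⟩
    heckeOperatorBar N ℓ x = pushPic (heckeAlphaBar Qbar N ℓ)
      (pullPic (heckeBetaBar Qbar N ℓ) x) := by
  have : NeZero (ℓ : ℕ) := ⟨ℓ.2.ne_zero⟩
  rw [heckeOperatorBar_apply, heckeOperatorAlong_eq_comp]
  rfl

/-- The degeneracy map `α` commutes with Galois. -/
theorem alpha_smul (ℓ : ℕ) [NeZero ℓ] (σ : Qbar ≃ₐ[ℚ] Qbar) (f : modularFunctionFieldBar N) :
    arithmeticGalois (L := Qbar) (modularFunctionFieldFull (N * ℓ)) σ • heckeAlphaBar Qbar N ℓ f =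
      heckeAlphaBar Qbar N ℓ (arithmeticGalois (L := Qbar) (modularFunctionFieldFull N) σ • f) :=
  Subtype.ext (by
    rw [coe_arithmeticGalois_smul, coe_heckeAlphaBar, coe_heckeAlphaBar, coe_arithmeticGalois_smul])

omit [NeZero N] in
/-- The degeneracy map `β` commutes with Galois. -/
theorem beta_smul (ℓ : ℕ) [NeZero ℓ] (σ : Qbar ≃ₐ[ℚ] Qbar) (f : modularFunctionFieldBar N) :
    arithmeticGalois (L := Qbar) (modularFunctionFieldFull (N * ℓ)) σ • heckeBetaBar Qbar N ℓ f =
      heckeBetaBar Qbar N ℓ (arithmeticGalois (L := Qbar) (modularFunctionFieldFull N) σ • f) :=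
  Subtype.ext (by
    rw [coe_arithmeticGalois_smul, coe_heckeBetaBar, coe_heckeBetaBar, coe_arithmeticGalois_smul,
      ModularCurve.coeffMap_qExpand])

/-- The Weil pairing is Galois equivariant. -/
theorem weilPairing_galois {n : ℕ} {x y : JZero N} (hx : n • x = 0) (hy : n • y = 0)
    (σ : Qbar ≃ₐ[ℚ] Qbar) :
    weilPairing n (σ • x) (σ • y) = σ (weilPairing n x y) :=
  weilPairing_smul hx hy (arithmeticGalois (L := Qbar) (modularFunctionFieldFull N) σ)

/-- The Weil pairing on `n`-torsion is nondegenerate, by comparison with `ℂ`. -/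
theorem weilPairing_nondeg {n : ℕ} (hn : n ≠ 0) {x : JZero N} (hx : n • x = 0)
    (h : ∀ y : JZero N, n • y = 0 → weilPairing n x y = 1) : x = 0 := by
  by_contra hx0
  obtain ⟨y, hy, hne⟩ :=
    ConstExt.exists_weilPairing_ne_one_of_complex (F := FN N ℂ) hn hx hx0
  exact hne (h y hy)

/-- The adjoint of `T ℓ` is the transposed correspondence. -/
theorem weilPairing_heckeOperatorBar {n : ℕ} (ℓ : Nat.Primes) {x y : JZero N} (hx : n • x = 0)
    (hy : n • y = 0) :
    haveI : NeZero (ℓ : ℕ) := ⟨ℓ.2.ne_zero⟩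
    weilPairing n (heckeOperatorBar N ℓ x) y = weilPairing n x
      (pushPic (heckeBetaBar Qbar N ℓ) (pullPic (heckeAlphaBar Qbar N ℓ) y)) := by
  have : NeZero (ℓ : ℕ) := ⟨ℓ.2.ne_zero⟩
  rw [heckeOperatorBar_eq]
  exact weilPairing_correspondence _ _ hx hy

end Fermat.JAC.X0

end
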