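import Fermat.Agent.JAC.X0.AtkinLehner
import Fermat.Agent.JAC.X0.Basic

/-!
# The Fricke involution and the twisted Weil pairing on `J₀(N)`

The involution is `fricke`, and `frickePair_nondeg` is the nondegeneracy of the pairing.
-/

set_option autoImplicit false

attribute [local instance 10000] SubalgebraClass.toAlgebra HahnSeries.powerSeriesAlgebra

noncomputable section

open AlgebraicCurve ModularCurve

namespace Fermat.JAC.X0

open Fermat.FF Fermat.MC

/-- The field embeds in `ℂ`. -/
class EmbedsC (L : Type*) [Field L] : Prop where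
  /-- There is an embedding into `ℂ`. -/
  nonempty : Nonempty (L →+* ℂ)

/-- `ℚ̄` embeds in `ℂ`. -/
instance embedsC_qbar : EmbedsC Qbar := ⟨⟨embC⟩⟩

/-- `ℂ` embeds in `ℂ`. -/
instance embedsC_complex : EmbedsC ℂ := ⟨⟨RingHom.id ℂ⟩⟩

section Def

variable (M : ℕ) [NeZero M] (L : Type*) [Field L] [Algebra ℚ L] [EmbedsC L]

/-- Some involution of the field sends `j (d τ)` to `j ((M / d) τ)`. -/
theorem exists_fricke :
    ∃ φ : FN M L →ₐ[L] FN M L, (∀ d, φ (jdL L d) = jdL L (frickePerm M d)) ∧ ∀ x, φ (φ x) = x :=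
  exists_algHom_of_perm (Classical.choice (EmbedsC.nonempty (L := L))) (frickePerm M)
    frickePerm_frickePerm _ jN_fricke

/-- The Fricke involution. -/
def fricke : FN M L ≃ₐ[L] FN M L :=
  AlgEquiv.ofAlgHom (exists_fricke M L).choose (exists_fricke M L).choose
    (AlgHom.ext (exists_fricke M L).choose_spec.2) (AlgHom.ext (exists_fricke M L).choose_spec.2)

/-- The Fricke involution permutes the functions `j (d τ)`. -/
theorem fricke_jdL (d : DivIdx M) : fricke M L (jdL L d) = jdL L (frickePerm M d) :=
  (exists_fricke M L).choose_spec.1 d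

/-- The Fricke involution is an involution. -/
theorem fricke_fricke (x : FN M L) : fricke M L (fricke M L x) = x :=
  (exists_fricke M L).choose_spec.2 x

/-- The Fricke involution as a semilinear automorphism. -/
def frickeAut : SemilinearAut L (FN M L) := SemilinearAut.ofAlgAut (fricke M L)

/-- The semilinear version acts as the Fricke involution. -/
theorem frickeAut_smul (x : FN M L) : frickeAut M L • x = fricke M L x := rfl

/-- The semilinear version is an involution. -/
theorem frickeAut_mul_self : frickeAut M L * frickeAut M L = 1 := by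
  rw [frickeAut, ← map_mul, ← map_one (SemilinearAut.ofAlgAut (K := L) (F := FN M L))]
  exact congrArg _ (AlgEquiv.ext (fricke_fricke M L))

/-- The Fricke involution fixes the constants. -/
theorem baseAut_frickeAut : SemilinearAut.baseAut (frickeAut M L) = 1 :=
  SemilinearAut.baseAut_ofAlgAut _

/-- The Fricke involution commutes with Galois. -/
theorem frickeAut_comm (σ : L ≃ₐ[ℚ] L) :
    arithmeticGalois (modularFunctionFieldFull M) σ * frickeAut M L =
      frickeAut M L * arithmeticGalois (modularFunctionFieldFull M) σ := by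
  have hfix : ∀ d : DivIdx M,
      arithmeticGalois (L := L) (modularFunctionFieldFull M) σ • jdL L d = jdL L d := fun d =>
    Subtype.ext (coeffMap_coeffEmb σ _)
  refine Subtype.ext (Prod.ext (RingEquiv.ext fun x => ?_) ?_)
  · refine ringHom_ext_jdL (φ := (SemilinearAut.toRingAut
        (arithmeticGalois (L := L) (modularFunctionFieldFull M) σ * frickeAut M L)).toRingHom)
      (ψ := (SemilinearAut.toRingAut
        (frickeAut M L * arithmeticGalois (L := L) (modularFunctionFieldFull M) σ)).toRingHom)
      (fun c => ?_) (fun d => ?_) x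
    · change (arithmeticGalois (L := L) (modularFunctionFieldFull M) σ * frickeAut M L) •
        algebraMap L (FN M L) c = (frickeAut M L *
          arithmeticGalois (L := L) (modularFunctionFieldFull M) σ) • algebraMap L (FN M L) c
      rw [SemilinearAut.smul_algebraMap, SemilinearAut.smul_algebraMap, SemilinearAut.baseAut_mul,
        SemilinearAut.baseAut_mul, baseAut_frickeAut, mul_one, one_mul]
    · change (arithmeticGalois (L := L) (modularFunctionFieldFull M) σ * frickeAut M L) • jdL L d =
        (frickeAut M L * arithmeticGalois (L := L) (modularFunctionFieldFull M) σ) • jdL L d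
      rw [mul_smul, mul_smul, hfix, frickeAut_smul, fricke_jdL, hfix]
  · change SemilinearAut.baseAut (arithmeticGalois (L := L) (modularFunctionFieldFull M) σ) *
      SemilinearAut.baseAut (frickeAut M L) = SemilinearAut.baseAut (frickeAut M L) *
        SemilinearAut.baseAut (arithmeticGalois (L := L) (modularFunctionFieldFull M) σ)
    rw [baseAut_frickeAut, mul_one, one_mul]

end Def

section Maps

variable (N ℓ : ℕ) [NeZero N] [NeZero ℓ] (L : Type*) [Field L] [Algebra ℚ L] [EmbedsC L]

/-- The index of `d` at level `N ℓ`. -/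
def idxAlpha (d : DivIdx N) : DivIdx (N * ℓ) :=
  ⟨d, Nat.mem_divisors.mpr ⟨d.dvd.mul_right ℓ, NeZero.ne _⟩⟩

/-- The index of `d ℓ` at level `N ℓ`. -/
def idxBeta (d : DivIdx N) : DivIdx (N * ℓ) :=
  ⟨d * ℓ, Nat.mem_divisors.mpr ⟨Nat.mul_dvd_mul_right d.dvd ℓ, NeZero.ne _⟩⟩

omit [EmbedsC L] in
/-- `α` keeps the index `d`. -/
theorem alpha_jdL (d : DivIdx N) : heckeAlphaBar L N ℓ (jdL L d) = jdL L (idxAlpha N ℓ d) :=
  Subtype.ext (coe_heckeAlphaBar N ℓ _)

omit [EmbedsC L] in
/-- `β` sends the index `d` to `d ℓ`. -/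
theorem beta_jdL (d : DivIdx N) : heckeBetaBar L N ℓ (jdL L d) = jdL L (idxBeta N ℓ d) := by
  refine Subtype.ext ((coe_heckeBetaBar N ℓ _).trans ?_)
  change qExpand L ℓ (coeffEmb L (qExpand ℚ (d : ℕ) jq)) = coeffEmb L (qExpand ℚ ((d : ℕ) * ℓ) jq)
  rw [coeffEmb, ← ModularCurve.coeffMap_qExpand, qExpand_qExpand]
  exact congrArg _ (qExpand_congr (Nat.mul_comm ℓ d) jq)

/-- The Fricke involutions turn `α` into `β`. -/
theorem fricke_alpha (x : FN N L) :
    fricke (N * ℓ) L (heckeAlphaBar L N ℓ x) = heckeBetaBar L N ℓ (fricke N L x) := by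
  refine ringHom_ext_jdL
    (φ := ((fricke (N * ℓ) L).toAlgHom.comp (heckeAlphaBar L N ℓ)).toRingHom)
    (ψ := ((heckeBetaBar L N ℓ).comp (fricke N L).toAlgHom).toRingHom) (fun c => ?_) (fun d => ?_) x
  · exact (AlgHom.commutes _ c).trans (AlgHom.commutes _ c).symm
  · change fricke (N * ℓ) L (heckeAlphaBar L N ℓ (jdL L d)) =
      heckeBetaBar L N ℓ (fricke N L (jdL L d))
    rw [alpha_jdL, fricke_jdL, fricke_jdL, beta_jdL]
    refine congrArg (jdL L) (Subtype.ext ?_)
    change N * ℓ / (d : ℕ) = N / (d : ℕ) * ℓ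
    obtain ⟨f, hf⟩ := d.dvd
    have hd : 0 < (d : ℕ) := Nat.pos_of_mem_divisors d.2
    generalize (d : ℕ) = e at *
    rw [hf, Nat.mul_assoc, Nat.mul_div_cancel_left _ hd, Nat.mul_div_cancel_left _ hd]

/-- The Fricke involutions turn `β` into `α`. -/
theorem fricke_beta (x : FN N L) :
    fricke (N * ℓ) L (heckeBetaBar L N ℓ x) = heckeAlphaBar L N ℓ (fricke N L x) := by
  have h := fricke_alpha N ℓ L (fricke N L x)
  rw [fricke_fricke] at h
  rw [← h, fricke_fricke]

variable [IsAlgClosed L] [IsFunctionField L (FN N L)] [IsFunctionField L (FN (N * ℓ) L)]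

/-- The transposed Hecke correspondence is conjugate by the Fricke involution. -/
theorem transpose_eq (x : Pic0 L (FN N L)) :
    pushPic (heckeBetaBar L N ℓ) (pullPic (heckeAlphaBar L N ℓ) (frickeAut N L • x)) =
      frickeAut N L • pushPic (heckeAlphaBar L N ℓ) (pullPic (heckeBetaBar L N ℓ) x) := by
  rw [pullPic_smul (φ := heckeBetaBar L N ℓ) (ψ := heckeAlphaBar L N ℓ) (s := frickeAut N L)
      (s' := frickeAut (N * ℓ) L) (fricke_beta N ℓ L),
    pushPic_smul (φ := heckeAlphaBar L N ℓ) (ψ := heckeBetaBar L N ℓ) (s := frickeAut N L)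
      (s' := frickeAut (N * ℓ) L) (fricke_alpha N ℓ L)]

end Maps

section Pair

variable (N : ℕ) [NeZero N]

/-- The Fricke involution preserves the `n`-torsion. -/
theorem nsmul_fricke {n : ℕ} {x : JZero N} (hx : n • x = 0) : n • (frickeAut N Qbar • x) = 0 := by
  have h := (DistribSMul.toAddMonoidHom (JZero N) (frickeAut N Qbar)).map_nsmul n x
  rw [hx, map_zero] at h
  exact h.symm

/-- The pairing `e_n(x, w_N y)`. -/
def frickePair (n : ℕ) (x y : JZero N) : Qbar := weilPairing n x (frickeAut N Qbar • y)

/-- The values are `n`-th roots of unity. -/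
theorem frickePair_pow {n : ℕ} {x y : JZero N} (hx : n • x = 0) (hy : n • y = 0) :
    frickePair N n x y ^ n = 1 := weilPairing_pow hx (nsmul_fricke N hy)

/-- The pairing is multiplicative on the left. -/
theorem frickePair_add_left {n : ℕ} {x x' y : JZero N} (hx : n • x = 0) (hx' : n • x' = 0)
    (hy : n • y = 0) :
    frickePair N n (x + x') y = frickePair N n x y * frickePair N n x' y :=
  weilPairing_add_left hx hx' (nsmul_fricke N hy)

/-- Exchanging the arguments inverts the value. -/
theorem frickePair_symm {n : ℕ} {x y : JZero N} (hx : n • x = 0) (hy : n • y = 0) :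
    frickePair N n y x * frickePair N n x y = 1 := by
  have h := weilPairing_smul (nsmul_fricke N hx) hy (frickeAut N Qbar)
  rw [← mul_smul, frickeAut_mul_self, one_smul, baseAut_frickeAut] at h
  change weilPairing n y (frickeAut N Qbar • x) * weilPairing n x (frickeAut N Qbar • y) = 1
  rw [show weilPairing n x (frickeAut N Qbar • y) = weilPairing n (frickeAut N Qbar • x) y from h]
  exact weilPairing_symm (nsmul_fricke N hx) hy

/-- The pairing is Galois equivariant. -/
theorem frickePair_galois {n : ℕ} {x y : JZero N} (hx : n • x = 0) (hy : n • y = 0)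
    (σ : Qbar ≃ₐ[ℚ] Qbar) :
    σ (frickePair N n x y) = frickePair N n (σ • x) (σ • y) := by
  rw [frickePair, ← weilPairing_galois N hx (nsmul_fricke N hy), frickePair]
  refine congrArg _ ?_
  rw [galois_smul_pic0_def, galois_smul_pic0_def, ← mul_smul, ← mul_smul, frickeAut_comm]

/-- The Hecke operators are self-adjoint. -/
theorem frickePair_heckeOperatorBar {n : ℕ} (ℓ : Nat.Primes) {x y : JZero N} (hx : n • x = 0)
    (hy : n • y = 0) :
    frickePair N n (heckeOperatorBar N ℓ x) y = frickePair N n x (heckeOperatorBar N ℓ y) := by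
  have : NeZero (ℓ : ℕ) := ⟨ℓ.2.ne_zero⟩
  rw [frickePair, weilPairing_heckeOperatorBar N ℓ hx (nsmul_fricke N hy), transpose_eq,
    ← heckeOperatorBar_eq, frickePair]

/-- The pairing is nondegenerate. -/
theorem frickePair_nondeg {n : ℕ} (hn : n ≠ 0) {x : JZero N} (hx : n • x = 0)
    (h : ∀ y : JZero N, n • y = 0 → frickePair N n x y = 1) : x = 0 := by
  refine weilPairing_nondeg N hn hx fun y hy => ?_
  have h1 := h _ (nsmul_fricke N hy)
  rwa [frickePair, ← mul_smul, frickeAut_mul_self, one_smul] at h1

/-- The pairings at orders `n` and `n m` are compatible. -/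
theorem frickePair_step {n m : ℕ} {x y : JZero N} (hx : (n * m) • x = 0) (hy : (n * m) • y = 0) :
    frickePair N n (m • x) (m • y) = frickePair N (n * m) x y ^ m := by
  rw [frickePair, (DistribSMul.toAddMonoidHom (JZero N) (frickeAut N Qbar)).map_nsmul m y |>
      fun h =>
    show frickeAut N Qbar • (m • y) = m • (frickeAut N Qbar • y) from h]
  exact weilPairing_nsmul hx (nsmul_fricke N hy)

end Pair

end Fermat.JAC.X0

end
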