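import Fermat.Agent.JAC.X0.Lattice
import Fermat.Agent.JAC.X0.Fricke
import Fermat.Agent.GR.ES.Build

/-!
# The analytic parts of the Eichler–Shimura input for `J₀(N)`

The main definition is `esInputOfSpec`, the input given the specialisation maps.
-/

set_option autoImplicit false

noncomputable section

open ModularCurve

namespace Fermat.JAC.X0

open Fermat.GR (FullHecke)

variable (N : ℕ) [NeZero N]

/-- The pairing takes nonzero values on torsion points. -/
theorem frickePair_ne_zero {n : ℕ} (hn : n ≠ 0) {x y : JZero N} (hx : n • x = 0) (hy : n • y = 0) :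
    frickePair N n x y ≠ 0 := fun h => by
  have := frickePair_pow N hx hy
  rw [h, zero_pow hn] at this
  exact zero_ne_one this

/-- The pairing is multiplicative on the right, by symmetry. -/
theorem frickePair_add_right {n : ℕ} (hn : n ≠ 0) {x y y' : JZero N} (hx : n • x = 0)
    (hy : n • y = 0) (hy' : n • y' = 0) :
    frickePair N n x (y + y') = frickePair N n x y * frickePair N n x y' := by
  have hadd : n • (y + y') = 0 := by rw [nsmul_add, hy, hy', add_zero]
  have h1 := frickePair_symm N hx hadd
  rw [frickePair_add_left N hy hy' hx] at h1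
  have h2 := frickePair_symm N hx hy
  have h3 := frickePair_symm N hx hy'
  refine mul_left_cancel₀ (mul_ne_zero (frickePair_ne_zero N hn hy hx)
    (frickePair_ne_zero N hn hy' hx)) ?_
  rw [h1, mul_mul_mul_comm, h2, h3, one_mul]

/-- The Hecke algebra is self-adjoint for the twisted Weil pairing. -/
theorem frickePair_jAct {n : ℕ} (hn : n ≠ 0) (t : FullHecke N) :
    ∀ {x y : JZero N}, n • x = 0 → n • y = 0 →
      frickePair N n (jAct N t x) y = frickePair N n x (jAct N t y) := by
  intro x y
  refine pair_act_of_mem_adjoin (jAct N) n (frickePair N n) (mul_comm (G := FullHecke N))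
    (fun _ _ => frickePair_ne_zero N hn) (fun _ _ _ => frickePair_add_left N)
    (fun _ _ _ => frickePair_add_right N hn) ?_ t x y
  -- on the generators by the adjointness of `T ℓ`
  rintro u hu x y hx hy
  obtain ⟨ℓ, hℓ⟩ : ∃ ℓ, ∀ z, jAct N u z = heckeOperatorBar N ℓ z := by
    rcases hu with ⟨ℓ, hℓ, hℓN, -, h⟩ | ⟨q, hqN, hq, -, h⟩
    · obtain rfl : u = CuspForm.heckeAlgebra.T hℓ hℓN (Set.notMem_empty ℓ) := Subtype.ext h
      exact ⟨_, fun z => jAct_T N hℓ hℓN z⟩
    · obtain rfl : u = CuspForm.heckeAlgebra.U hq hqN (Set.notMem_empty q) := Subtype.ext h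
      exact ⟨_, fun z => jAct_U N hq hqN z⟩
  exact (congrArg (frickePair N n · y) (hℓ x)).trans
    ((frickePair_heckeOperatorBar N ℓ hx hy).trans (congrArg (frickePair N n x) (hℓ y)).symm)

variable (p : ℕ) [hp : Fact p.Prime]

/-- The pairing `e_{p^n}(x, w_N y)`. -/
def esPairing : Fermat.GR.TwistedPairing (esLattice N p) where
  pair n := frickePair N (p ^ n)
  pair_pow _ _ _ := frickePair_pow N
  pair_add_left _ _ _ _ := frickePair_add_left N
  pair_symm _ _ _ := frickePair_symm N
  pair_galois _ σ _ _ hx hy := frickePair_galois N hx hy σ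
  pair_act n t _ _ hx hy := frickePair_jAct N (pow_ne_zero n hp.out.ne_zero) t hx hy
  pair_nondeg n _ := frickePair_nondeg N (pow_ne_zero n hp.out.ne_zero)

/-- The Eichler–Shimura input of `J₀(N)`, given the specialisation maps. -/
def esInputOfSpec
    (hspec : letI := heckeModuleBar N
      ∀ (_ : SMulCommClass (AlgebraicClosure ℚ ≃ₐ[ℚ] AlgebraicClosure ℚ) HeckeAlg (JZero N)),
        SpecializationExists (K := ℚ) (L := AlgebraicClosure ℚ) N p (JZero N)) :
    Fermat.GR.ESInput N p :=
  Fermat.GR.ESInput.ofParts (esLattice N p) (fun _ hq hqN x => jAct_U N hq hqN x) (esPairing N p)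
    (heckeOperatorsCommuteBar N) hspec

end Fermat.JAC.X0

end
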