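import Fermat.Agent.JAC.QCorr
import Fermat.Agent.JAC.X0.Fricke
import Mathlib.RingTheory.RootsOfUnity.Complex

/-!
# The Hecke correspondence on differentials has the Hecke effect on `q`-expansions

The main result is `qdiff_heckeCorr`.
-/

set_option autoImplicit false

attribute [local instance 10000] SubalgebraClass.toAlgebra HahnSeries.powerSeriesAlgebra

noncomputable section

open AlgebraicCurve ModularCurve

namespace Fermat.JAC.X0

open Fermat.FF Fermat.MC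

/-- Multiplying the level by a prime `ℓ` multiplies `ψ` by `ℓ` or `ℓ + 1`. -/
theorem dedekindPsi_mul_prime (N ℓ : ℕ) [NeZero N] (hℓ : ℓ.Prime) :
    dedekindPsi (N * ℓ) = dedekindPsi N * if ℓ ∣ N then ℓ else ℓ + 1 := by
  obtain ⟨k, m, hm, rfl⟩ := Nat.exists_eq_pow_mul_and_not_dvd (NeZero.ne N) ℓ hℓ.ne_one
  have hco : (ℓ ^ (k + 1)).Coprime m := (hℓ.coprime_iff_not_dvd.mpr hm).pow_left _
  rw [show ℓ ^ k * m * ℓ = ℓ ^ (k + 1) * m by ring, MF.dedekindPsi_mul hco,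
    MF.dedekindPsi_prime_pow hℓ]
  rcases k with _ | k
  · rw [pow_zero, one_mul, if_neg hm, pow_one]
    ring
  · have hco' : (ℓ ^ (k + 1)).Coprime m := (hℓ.coprime_iff_not_dvd.mpr hm).pow_left _
    rw [MF.dedekindPsi_mul hco', MF.dedekindPsi_prime_pow hℓ,
      if_pos ((dvd_pow_self ℓ k.succ_ne_zero).mul_right m)]
    ring

/-- The expansion at `∞`, as an algebra map. -/
def inftyEmb (M : ℕ) [NeZero M] : FN M ℂ →ₐ[ℂ] LaurentSeries ℂ where
  toFun x := (x : LaurentSeries ℂ)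
  map_one' := rfl
  map_mul' _ _ := rfl
  map_zero' := rfl
  map_add' _ _ := rfl
  commutes' _ := rfl

/-- The expansion of a function is the function as a series. -/
@[simp] theorem inftyEmb_apply (M : ℕ) [NeZero M] (x : FN M ℂ) :
    inftyEmb M x = (x : LaurentSeries ℂ) := rfl

variable (N ℓ : ℕ) [NeZero N] [NeZero ℓ]

/-- The degree of `α` is `ψ (N ℓ) / ψ N`, by the degrees of the divisors of `j`. -/
theorem finrankAlong_alpha :
    dedekindPsi (N * ℓ) = finrankAlong ℂ (heckeAlphaBar ℂ N ℓ) * dedekindPsi N := by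
  have hpsi : ∀ (M : ℕ) [NeZero M],
      Divisor.degree (zeroDiv ℂ (jL M ℂ)) = (dedekindPsi M : ℤ) := fun M _ => by
    rw [degree_zeroDiv (transcendental_jL M), (finrank_FN M (RingHom.id ℂ)).1,
      psiN_eq_dedekindPsi]
  have hj : heckeAlphaBar ℂ N ℓ (jL N ℂ) = jL (N * ℓ) ℂ := Subtype.ext (coe_heckeAlphaBar N ℓ _)
  have hpull : pullDiv (heckeAlphaBar ℂ N ℓ) (zeroDiv ℂ (jL N ℂ)) =
      zeroDiv ℂ (jL (N * ℓ) ℂ) := by
    ext w
    rw [pullDiv_apply, zeroDiv_apply, zeroDiv_apply, ← hj, ord_below,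
      mul_max_of_nonneg _ _ (Int.natCast_nonneg _), mul_zero]
  have h := degree_pullDiv (heckeAlphaBar ℂ N ℓ) (zeroDiv ℂ (jL N ℂ))
  rw [hpull, hpsi, hpsi] at h
  exact_mod_cast h

/-- Isomorphic maps have the same degree. -/
theorem finrankAlong_eq_of_equiv {A B A' B' : Type*} [Field A] [Field B] [Field A'] [Field B']
    [Algebra ℂ A] [Algebra ℂ B] [Algebra ℂ A'] [Algebra ℂ B'] (φ : A →ₐ[ℂ] B) (ψ : A' →ₐ[ℂ] B')
    (i : A ≃ₐ[ℂ] A') (j : B ≃ₐ[ℂ] B') (h : ∀ x, ψ (i x) = j (φ x)) :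
    finrankAlong ℂ φ = finrankAlong ℂ ψ := by
  let := algebraAlong φ
  let := algebraAlong ψ
  exact Algebra.finrank_eq_of_equiv_equiv i.toRingEquiv j.toRingEquiv (RingHom.ext h)

/-- `β` has the degree of `α`, being conjugate to it by the Fricke involutions. -/
theorem finrankAlong_beta_eq :
    finrankAlong ℂ (heckeBetaBar ℂ N ℓ) = finrankAlong ℂ (heckeAlphaBar ℂ N ℓ) :=
  finrankAlong_eq_of_equiv _ _ (fricke N ℂ) (fricke (N * ℓ) ℂ)
    fun x => (fricke_beta N ℓ ℂ x).symm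

/-- The degree of `β` at a prime `ℓ` is `ℓ` or `ℓ + 1`. -/
theorem finrankAlong_beta (hℓ : ℓ.Prime) :
    finrankAlong ℂ (heckeBetaBar ℂ N ℓ) = if ℓ ∣ N then ℓ else ℓ + 1 := by
  have h := finrankAlong_alpha N ℓ
  rw [dedekindPsi_mul_prime N ℓ hℓ, mul_comm] at h
  rw [finrankAlong_beta_eq]
  refine (Nat.eq_of_mul_eq_mul_right ?_ h).symm
  rw [← psiN_eq_dedekindPsi, psiN]
  exact Nat.card_pos

/-- `ℂ` has a primitive `ℓ`-th root of unity. -/
theorem exists_zetaUnit : ∃ u : ℂˣ, IsPrimitiveRoot (u : ℂ) ℓ :=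
  ⟨Units.mk0 (Complex.exp (2 * Real.pi * Complex.I / (ℓ : ℂ))) (Complex.exp_ne_zero _),
    Complex.isPrimitiveRoot_exp ℓ (NeZero.ne ℓ)⟩

/-- `α` preserves expansions at `∞`. -/
theorem inftyEmb_alpha :
    (inftyEmb (N * ℓ)).comp (heckeAlphaBar ℂ N ℓ) = inftyEmb N :=
  AlgHom.ext fun x => by
    rw [AlgHom.comp_apply, inftyEmb_apply, inftyEmb_apply, coe_heckeAlphaBar]

/-- `β` substitutes `q ^ ℓ` in expansions at `∞`. -/
theorem inftyEmb_beta :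
    (inftyEmb (N * ℓ)).comp (heckeBetaBar ℂ N ℓ) = (qExpandC ℓ).comp (inftyEmb N) :=
  AlgHom.ext fun x => by
    rw [AlgHom.comp_apply, AlgHom.comp_apply, inftyEmb_apply, inftyEmb_apply, qExpandC_apply,
      coe_heckeBetaBar]

/-- `j` has a nonzero coefficient at `q⁻¹`. -/
theorem coeff_jL_ne_zero (M : ℕ) [NeZero M] : (inftyEmb M (jL M ℂ)).coeff (-1 : ℤ) ≠ 0 := by
  change (coeffEmb ℂ jq).coeff (-1 : ℤ) ≠ 0
  rw [coeffEmb_coeff, coeff_jq_neg_one, map_one]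
  exact one_ne_zero

/-- A second embedding of level `N ℓ`, composing with `β` to `q ↦ q ^ ℓ` and with `α` to
`q ↦ q ^ (ℓ * ℓ)`: the expansion at the other cusp. -/
theorem exists_otherEmb (hℓ : ℓ.Prime) (hℓN : ¬ ℓ ∣ N) :
    ∃ τ : FN (N * ℓ) ℂ →ₐ[ℂ] LaurentSeries ℂ,
      τ.comp (heckeBetaBar ℂ N ℓ) = (qExpandC ℓ).comp (inftyEmb N) ∧
      τ.comp (heckeAlphaBar ℂ N ℓ) = (qExpandC (ℓ * ℓ)).comp (inftyEmb N) := by
  obtain ⟨g, hg⟩ := exists_swap_map hℓ hℓN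
  -- `W` is the involution exchanging `j (d τ)` and `j (d ℓ τ)` for `d ∣ N`
  obtain ⟨W, hW, hWW⟩ := exists_algHom_of_perm (L := ℂ) (RingHom.id ℂ) (swapPerm hℓ)
    (swapPerm_swapPerm hℓ hℓN) g hg
  have hWb : ∀ x, W (heckeBetaBar ℂ N ℓ x) = heckeAlphaBar ℂ N ℓ x := by
    refine ringHom_ext_jdL (φ := (W.comp (heckeBetaBar ℂ N ℓ)).toRingHom)
      (ψ := (heckeAlphaBar ℂ N ℓ).toRingHom) (fun c => ?_) (fun d => ?_)
    · exact (AlgHom.commutes _ c).trans (AlgHom.commutes _ c).symm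
    · change W (heckeBetaBar ℂ N ℓ (jdL ℂ d)) = heckeAlphaBar ℂ N ℓ (jdL ℂ d)
      rw [beta_jdL, hW, alpha_jdL]
      refine congrArg (jdL ℂ) (Subtype.ext ?_)
      rw [swapPerm, dif_pos (show ℓ ∣ ((idxBeta N ℓ d : DivIdx (N * ℓ)) : ℕ) from
        dvd_mul_left ℓ (d : ℕ))]
      exact Nat.mul_div_cancel _ hℓ.pos
  refine ⟨((qExpandC ℓ).comp (inftyEmb (N * ℓ))).comp W, AlgHom.ext fun x => ?_,
    AlgHom.ext fun x => ?_⟩
  · simp only [AlgHom.comp_apply, inftyEmb_apply, qExpandC_apply, hWb, coe_heckeAlphaBar]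
  · simp only [AlgHom.comp_apply, inftyEmb_apply, qExpandC_apply]
    rw [← hWb x, hWW, coe_heckeBetaBar, qExpand_qExpand]

/-- The action of the correspondence on the `q`-expansion of a differential. -/
theorem qdiff_heckeCorr (hℓ : ℓ.Prime) (ω : Ω[FN N ℂ⁄ℂ]) (n : ℤ) :
    (qdiff (inftyEmb N) (diffTr (heckeBetaBar ℂ N ℓ) (diffPull (heckeAlphaBar ℂ N ℓ) ω))).coeff n =
      (qdiff (inftyEmb N) ω).coeff ((ℓ : ℤ) * n) +
        if ¬ ℓ ∣ N ∧ (ℓ : ℤ) ∣ n then (ℓ : ℂ) * (qdiff (inftyEmb N) ω).coeff (n / ℓ) else 0 := by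
  obtain ⟨u, hu⟩ := exists_zetaUnit ℓ
  by_cases hℓN : ℓ ∣ N
  · rw [qdiff_corr_of_card_eq (inftyEmb_alpha N ℓ) (inftyEmb_beta N ℓ) hu
      (coeff_jL_ne_zero (N * ℓ)) (by rw [finrankAlong_beta N ℓ hℓ, if_pos hℓN]),
      if_neg fun h => h.1 hℓN, add_zero]
  · obtain ⟨τ, hτβ, hτα⟩ := exists_otherEmb N ℓ hℓ hℓN
    rw [qdiff_corr_of_card_succ hℓ.ne_one (inftyEmb_alpha N ℓ) (inftyEmb_beta N ℓ) hu
      (coeff_jL_ne_zero N) hτβ hτα (by rw [finrankAlong_beta N ℓ hℓ, if_neg hℓN])]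
    simp only [hℓN, not_false_eq_true, true_and]

end Fermat.JAC.X0

end
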