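import Fermat.Agent.JAC.X0.DiffS2
import Fermat.Agent.JAC.X0.Basic
import Fermat.Agent.JAC.Induced
import Fermat.Agent.GR.ES.Input

/-!
# The action of the Hecke algebra of cusp forms on `J₀(N)(ℚ̄)`

The transposes of the Hecke operators on forms induce endomorphisms of `J₀(N)(ℚ̄)`, the generators
the Hecke correspondences, which therefore commute.
-/

set_option autoImplicit false

attribute [local instance 10000] SubalgebraClass.toAlgebra HahnSeries.powerSeriesAlgebra
attribute [local instance 10001] Fermat.JAC.X0.algebraFN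

noncomputable section

open AlgebraicCurve ModularCurve Function

namespace Fermat.JAC.X0

open Fermat.MC
open Fermat.GR (FullHecke)

section Compat

variable (N ℓ : ℕ) [NeZero N] [NeZero ℓ]

/-- `α` commutes with the extension of constants to `ℂ`. -/
theorem alpha_lbc (f : modularFunctionFieldBar N) :
    heckeAlphaBar ℂ N ℓ (algebraMap (modularFunctionFieldBar N) (FN N ℂ) f) =
      algebraMap (modularFunctionFieldBar (N * ℓ)) (FN (N * ℓ) ℂ) (heckeAlphaBar Qbar N ℓ f) :=
  Subtype.ext (by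
    simp only [RingHom.algebraMap_toAlgebra, coe_heckeAlphaBar, coe_lbcMap])

omit [NeZero N] in
/-- `β` commutes with the extension of constants to `ℂ`. -/
theorem beta_lbc (f : modularFunctionFieldBar N) :
    heckeBetaBar ℂ N ℓ (algebraMap (modularFunctionFieldBar N) (FN N ℂ) f) =
      algebraMap (modularFunctionFieldBar (N * ℓ)) (FN (N * ℓ) ℂ) (heckeBetaBar Qbar N ℓ f) :=
  Subtype.ext (by
    simp only [RingHom.algebraMap_toAlgebra, coe_heckeBetaBar, coe_lbcMap,
        ModularCurve.coeffMap_qExpand])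

end Compat

variable (N : ℕ) [NeZero N]

/-- `J₀(N)(ℚ̄) → J₀(N)(ℂ)`. -/
def toC : JZero N →+ Pic0 ℂ (FN N ℂ) := ConstExt.pic0Ext Qbar ℂ (modularFunctionFieldBar N) (FN N ℂ)

/-- `J₀(N)(ℚ̄)` injects into `J₀(N)(ℂ)`. -/
theorem toC_injective : Injective (toC N) := ConstExt.pic0Ext_injective

/-- The Hecke operators commute with the passage to `ℂ`. -/
theorem toC_heckeOperatorBar (ℓ : Nat.Primes) (x : JZero N) :
    haveI : NeZero (ℓ : ℕ) := ⟨ℓ.2.ne_zero⟩
    toC N (heckeOperatorBar N ℓ x) =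
      pushPic (heckeAlphaBar ℂ N ℓ) (pullPic (heckeBetaBar ℂ N ℓ) (toC N x)) := by
  have : NeZero (ℓ : ℕ) := ⟨ℓ.2.ne_zero⟩
  rw [heckeOperatorBar_eq, toC,
    ConstExt.pullPic_pic0Ext (φ₀ := heckeBetaBar Qbar N ℓ) (beta_lbc N ℓ),
    ConstExt.pushPic_pic0Ext (φ₀ := heckeAlphaBar Qbar N ℓ) (alpha_lbc N ℓ)]

/-- The transpose on `DiffDual` of an endomorphism of the cusp forms. -/
def dualOp (t : Module.End ℂ (CuspForm (CongruenceSubgroup.Gamma0 N) 2)) :
    Module.End ℂ (DiffDual (FN N ℂ)) :=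
  LinearMap.lcomp ℂ ℂ ((eS2 N).toLinearMap.comp (t.comp (eS2 N).symm.toLinearMap))

/-- The value of a transposed operator. -/
theorem dualOp_apply (t : Module.End ℂ (CuspForm (CongruenceSubgroup.Gamma0 N) 2))
    (v : DiffDual (FN N ℂ)) (ω : regDiff (FN N ℂ)) :
    dualOp N t v ω = v (eS2 N (t ((eS2 N).symm ω))) := rfl

/-- The transpose of the identity is the identity. -/
theorem dualOp_one : dualOp N 1 = 1 :=
  LinearMap.ext fun v => LinearMap.ext fun ω =>
    congrArg v ((eS2 N).apply_symm_apply ω)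

/-- Transposition reverses products. -/
theorem dualOp_mul (s t : Module.End ℂ (CuspForm (CongruenceSubgroup.Gamma0 N) 2)) :
    dualOp N (s * t) = dualOp N t * dualOp N s :=
  LinearMap.ext fun v => LinearMap.ext fun _ =>
    congrArg v (congrArg (fun x => eS2 N (s x)) ((eS2 N).symm_apply_apply _).symm)

/-- Transposition is additive. -/
theorem dualOp_add (s t : Module.End ℂ (CuspForm (CongruenceSubgroup.Gamma0 N) 2)) :
    dualOp N (s + t) = dualOp N s + dualOp N t :=
  LinearMap.ext fun v => LinearMap.ext fun _ =>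
    (congrArg v (map_add (eS2 N) _ _)).trans (map_add v _ _)

/-- The transpose of zero is zero. -/
theorem dualOp_zero : dualOp N 0 = 0 :=
  LinearMap.ext fun v => LinearMap.ext fun _ =>
    (congrArg v (map_zero (eS2 N))).trans (map_zero v)

/-- The transpose of an integer is multiplication by it. -/
theorem dualOp_intCast (m : ℤ) :
    dualOp N (algebraMap ℤ (Module.End ℂ (CuspForm (CongruenceSubgroup.Gamma0 N) 2)) m) =
      algebraMap ℤ _ m :=
  LinearMap.ext fun v => LinearMap.ext fun ω => by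
    rw [dualOp_apply, Module.algebraMap_end_apply, map_zsmul, LinearEquiv.apply_symm_apply,
      map_zsmul, Module.algebraMap_end_apply, LinearMap.smul_apply]

/-- The transpose of an operator that agrees with the correspondence of `T ℓ` on differentials
induces `T ℓ`. -/
theorem isInducedBy_hecke (ℓ : Nat.Primes) :
    haveI : NeZero (ℓ : ℕ) := ⟨ℓ.2.ne_zero⟩
    ∀ (t : Module.End ℂ (CuspForm (CongruenceSubgroup.Gamma0 N) 2)),
      (∀ f, corrDiff N ℓ (eS2 N f) = eS2 N (t f)) →
        IsInducedBy Qbar (modularFunctionFieldBar N) (FN N ℂ) (dualOp N t)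
          (heckeOperatorBar N ℓ).toAddMonoidHom := by
  have : NeZero (ℓ : ℕ) := ⟨ℓ.2.ne_zero⟩
  intro t ht x v h
  change toC N (heckeOperatorBar N ℓ x) = _
  rw [toC_heckeOperatorBar, show toC N x = unif (FN N ℂ) v from h, correspondence_unif]
  refine congrArg _ (LinearMap.ext fun ω => ?_)
  rw [LinearMap.comp_apply, dualOp_apply, ← ht, LinearEquiv.apply_symm_apply]
  rfl

/-- The transpose of every element of the Hecke algebra of forms induces an endomorphism of
`J₀(N)(ℚ̄)`. -/
theorem dualOp_mem_inducedAlg (t : FullHecke N) :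
    dualOp N (t : Module.End ℂ (CuspForm (CongruenceSubgroup.Gamma0 N) 2)) ∈
      inducedAlg Qbar (modularFunctionFieldBar N) (FN N ℂ) := by
  obtain ⟨t, ht⟩ := t
  induction ht using Algebra.adjoin_induction with
  | mem u hu =>
    rcases hu with ⟨ℓ, hℓ, hℓN, -, rfl⟩ | ⟨q, hqN, hq, -, rfl⟩
    · have : NeZero ℓ := ⟨hℓ.ne_zero⟩
      exact ⟨_, isInducedBy_hecke N ⟨ℓ, hℓ⟩ _ (corrDiff_heckeT N hℓ hℓN)⟩
    · have : NeZero q := ⟨hq.ne_zero⟩
      exact ⟨_, isInducedBy_hecke N ⟨q, hq⟩ _ (corrDiff_heckeU N hq hqN)⟩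
  | algebraMap m => rw [dualOp_intCast]; exact Subalgebra.algebraMap_mem _ m
  | add x y _ _ h1 h2 => rw [dualOp_add]; exact Subalgebra.add_mem _ h1 h2
  | mul x y _ _ h1 h2 => rw [dualOp_mul]; exact Subalgebra.mul_mem _ h2 h1

/-- Transposition of the Hecke algebra of forms. -/
def dualHecke : FullHecke N →+* inducedAlg Qbar (modularFunctionFieldBar N) (FN N ℂ) where
  toFun t := ⟨dualOp N t, dualOp_mem_inducedAlg N t⟩
  map_one' := Subtype.ext (dualOp_one N)
  map_zero' := Subtype.ext (dualOp_zero N)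
  map_add' _ _ := Subtype.ext (dualOp_add N _ _)
  map_mul' s t := Subtype.ext (by rw [mul_comm s t]; exact dualOp_mul N _ _)

/-- The action of the Hecke algebra on `J₀(N)(ℚ̄)`. -/
def jAct : FullHecke N →+* AddMonoid.End (JZero N) :=
  (inducedAct Qbar (modularFunctionFieldBar N) (FN N ℂ)).comp (dualHecke N)

/-- The element `T ℓ` of the algebra acts as the operator `T ℓ` on `J₀(N)`. -/
theorem jAct_T {ℓ : ℕ} (hℓ : ℓ.Prime) (hℓN : ¬ ℓ ∣ N) (x : JZero N) :
    jAct N (CuspForm.heckeAlgebra.T hℓ hℓN (Set.notMem_empty ℓ)) x =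
      heckeOperatorBar N ⟨ℓ, hℓ⟩ x :=
  haveI : NeZero ℓ := ⟨hℓ.ne_zero⟩
  DFunLike.congr_fun
    (inducedAct_eq (isInducedBy_hecke N ⟨ℓ, hℓ⟩ _ (corrDiff_heckeT N hℓ hℓN))) x

/-- The element `U q` of the algebra acts as the operator at `q` on `J₀(N)`. -/
theorem jAct_U {q : ℕ} (hq : q.Prime) (hqN : q ∣ N) (x : JZero N) :
    jAct N (CuspForm.heckeAlgebra.U hq hqN (Set.notMem_empty q)) x =
      heckeOperatorBar N ⟨q, hq⟩ x :=
  haveI : NeZero q := ⟨hq.ne_zero⟩
  DFunLike.congr_fun
    (inducedAct_eq (isInducedBy_hecke N ⟨q, hq⟩ _ (corrDiff_heckeU N hq hqN))) x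

/-- The Hecke operators on `J₀(N)(ℚ̄)` commute. -/
theorem heckeOperatorsCommuteBar : HeckeOperatorsCommuteBar N := by
  intro ℓ ℓ'
  have key : ∀ m : Nat.Primes, ∃ t : FullHecke N,
      ∀ y, heckeOperatorBar N m y = jAct N t y := fun m => by
    by_cases h : (m : ℕ) ∣ N
    · exact ⟨_, fun y => (jAct_U N m.2 h y).symm⟩
    · exact ⟨_, fun y => (jAct_T N m.2 h y).symm⟩
  obtain ⟨s, hs⟩ := key ℓ
  obtain ⟨t, ht⟩ := key ℓ'
  refine LinearMap.ext fun y => ?_
  rw [Module.End.mul_apply, Module.End.mul_apply, hs, ht, ht, hs]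
  change (jAct N s * jAct N t) y = (jAct N t * jAct N s) y
  rw [← map_mul, mul_comm, map_mul]

end Fermat.JAC.X0

end
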