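import Fermat.Agent.MC.X0.DimS2
import Fermat.Agent.JAC.QDiff

/-!
# The expansion of `θ j` and of the differential attached to a cusp form

The main result is `exists_phiS2_theta`, the expansion `f / θ j` of the differential up to a
constant.
-/

set_option autoImplicit false

noncomputable section

open Filter Topology Complex Function
open UpperHalfPlane hiding I
open ModularForm (E₄ E₆)
open scoped Manifold MatrixGroups Real

local notation "Δ" => ModularForm.discriminant

namespace Fermat.JAC.X0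

open Fermat.MC
open CongruenceSubgroup (Gamma0)

/-- The normalised derivative is periodic and bounded. -/
theorem bddPer_normalizedDeriv {F : ℍ → ℂ} (hF : BddPer F) :
    BddPer (Derivative.normalizedDerivOfComplex F) := by
  refine ⟨Derivative.normalizedDerivOfComplex_mdifferentiable hF.1, fun w => ?_,
    (tendsto_D_atImInfty hF).isBigO_one ℝ⟩
  by_cases hw : 0 < w.im
  · have hw' : 0 < (w + 1).im := by simpa using hw
    simp only [MC.ext, comp_apply, ofComplex_apply_of_im_pos hw, ofComplex_apply_of_im_pos hw',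
      normalizedDeriv_eq hF]
    have hq : Periodic.qParam 1 (w + 1) = Periodic.qParam 1 w := by
      simp [Periodic.qParam, mul_add, Complex.exp_add]
    change Periodic.qParam 1 (w + 1) * _ = Periodic.qParam 1 w * _
    rw [hq]
  · push Not at hw
    have hw' : (w + 1).im ≤ 0 := by simpa using hw
    simp [MC.ext, ofComplex_apply_of_im_nonpos hw, ofComplex_apply_of_im_nonpos hw']

/-- The expansion of the normalised derivative is `θ` of the expansion. -/
theorem qS_normalizedDeriv {F : ℍ → ℂ} (hF : BddPer F) :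
    qS (Derivative.normalizedDerivOfComplex F) = JAC.thetaSeries (qS F) := by
  set U := cuspFunction 1 F with hU
  have hUa : AnalyticAt ℂ U 0 := hF.analyticAt
  have hV : AnalyticAt ℂ (id * deriv U) 0 := analyticAt_id.mul hUa.deriv
  -- near `q = 0` the cusp function of the derivative is `q U'`
  have hev : cuspFunction 1 (Derivative.normalizedDerivOfComplex F) =ᶠ[𝓝 0] id * deriv U := by
    refine ((bddPer_normalizedDeriv hF).analyticAt.frequently_eq_iff_eventually_eq hV).mp
      (Eventually.frequently ?_)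
    have hball : ∀ᶠ q in 𝓝[≠] (0 : ℂ), ‖q‖ < 1 :=
      nhdsWithin_le_nhds (Metric.ball_mem_nhds (0 : ℂ) one_pos |> fun h => by
        filter_upwards [h] with q hq
        simpa using hq)
    filter_upwards [hball, self_mem_nhdsWithin] with q hq hq0
    have hq0' : q ≠ 0 := hq0
    have him : 0 < (Periodic.invQParam 1 q).im :=
      Periodic.im_invQParam_pos_of_norm_lt_one one_pos hq hq0'
    change Periodic.cuspFunction 1 _ q = q * deriv U q
    rw [Periodic.cuspFunction_eq_of_nonzero _ _ hq0', comp_apply, ofComplex_apply_of_im_pos him,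
      normalizedDeriv_eq hF]
    simp only [Periodic.qParam_right_inv one_ne_zero hq0']
    rfl
  -- compare coefficients
  ext n
  rw [JAC.thetaSeries_coeff]
  rcases lt_or_ge n 0 with hn | hn
  · rw [qS, qS, ModularCurve.ofPowerSeries_coeff_of_neg _ hn,
      ModularCurve.ofPowerSeries_coeff_of_neg _ hn, mul_zero]
  · obtain ⟨m, rfl⟩ := Int.eq_ofNat_of_zero_le hn
    rw [qS, qS, HahnSeries.ofPowerSeries_apply_coeff, HahnSeries.ofPowerSeries_apply_coeff,
      qExpansion_coeff, qExpansion_coeff, ← hU, hev.iteratedDeriv_eq m, ← coeff_taylorPS,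
      ← coeff_taylorPS, taylorPS_mul analyticAt_id hUa.deriv, taylorPS_id_zero]
    rcases m with _ | m
    · simp
    · rw [PowerSeries.coeff_succ_X_mul, coeff_taylorPS, coeff_taylorPS, ← iteratedDeriv_succ',
        Nat.factorial_succ]
      push_cast
      have h1 : (m.factorial : ℂ) ≠ 0 := Nat.cast_ne_zero.mpr m.factorial_ne_zero
      have h2 : ((m : ℂ) + 1) ≠ 0 := by exact_mod_cast Nat.succ_ne_zero m
      field_simp

/-- `θ j` as a series: `θ(j) Δ = c E₄² E₆`. -/
theorem exists_theta_jq : ∃ c : ℂ, c ≠ 0 ∧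
    JAC.thetaSeries (ModularCurve.coeffEmb ℂ ModularCurve.jq) * qS Δ =
      algebraMap ℂ (LaurentSeries ℂ) c * qS ((⇑E₄) ^ 2 * (⇑E₆) ^ 1) := by
  obtain ⟨c, hc, hderiv⟩ := exists_deriv_jA
  refine ⟨c / (2 * π * I), div_ne_zero hc (by simp [Real.pi_ne_zero]), ?_⟩
  have hE : BddPer ((⇑E₄) ^ 3 : ℍ → ℂ) := bddPer_E₄.pow 3
  have hT : BddPer ((⇑E₄) ^ 2 * (⇑E₆) ^ 1 : ℍ → ℂ) := bddPer_mono 2 1
  have hDΔ := bddPer_normalizedDeriv bddPer_discriminant
  let j : perAlg := ⟨jA, jA_mem_perAlg⟩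
  let T : perAlg := ⟨_, hT.mem_perAlg⟩
  let P : perAlg := ⟨_, hDΔ.mem_perAlg⟩
  let Q : perAlg := ⟨_, (bddPer_normalizedDeriv hE).mem_perAlg⟩
  -- differentiate `E₄³ = j Δ`
  have e : Q = algebraMap ℂ perAlg (c / (2 * π * I)) * T + j * P := by
    refine Subtype.ext (funext fun z => ?_)
    change Derivative.normalizedDerivOfComplex ((⇑E₄) ^ 3) z = _
    rw [← jA_mul_discriminant, Derivative.normalizedDerivOfComplex_mul _ _ mdiff_jA
      bddPer_discriminant.1]
    simp only [Pi.add_apply, Pi.mul_apply]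
    change Derivative.normalizedDerivOfComplex jA z * Δ z +
        jA z * Derivative.normalizedDerivOfComplex Δ z =
      c / (2 * π * I) * ((⇑E₄) ^ 2 * (⇑E₆) ^ 1 : ℍ → ℂ) z +
        jA z * Derivative.normalizedDerivOfComplex Δ z
    have h := hderiv z
    rw [MC.ext] at h
    have hD := ModularForm.discriminant_ne_zero z
    rw [Derivative.normalizedDerivOfComplex, h]
    simp only [Pi.mul_apply, Pi.pow_apply, pow_one]
    field_simp
  -- take expansions, where differentiation is `θ`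
  have h1 := congrArg qL e
  rw [map_add, map_mul, map_mul, AlgHom.commutes, qL_eq_qS (bddPer_normalizedDeriv hE),
    qL_eq_qS hT, qL_eq_qS hDΔ, qS_normalizedDeriv hE, qS_normalizedDeriv bddPer_discriminant,
    show qL j = ModularCurve.coeffEmb ℂ ModularCurve.jq from qL_jA] at h1
  -- the `θ Δ` terms cancel
  have h2 : qS ((⇑E₄) ^ 3) = ModularCurve.coeffEmb ℂ ModularCurve.jq * qS Δ := by
    have hj : (j * ⟨_, bddPer_discriminant.mem_perAlg⟩ : perAlg) = ⟨_, hE.mem_perAlg⟩ :=
      Subtype.ext jA_mul_discriminant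
    rw [← qL_eq_qS hE, ← hj, map_mul, qL_eq_qS bddPer_discriminant,
      show qL j = ModularCurve.coeffEmb ℂ ModularCurve.jq from qL_jA]
  rw [h2, JAC.thetaSeries_mul, mul_comm (qS Δ), add_comm] at h1
  exact add_right_cancel h1

variable (G : Subgroup SL(2, ℤ)) [Lvl.LevelGen G]

/-- The expansion of `j (j - 1728)` times `Δ ^ 2`. -/
theorem qW_jj_mul : Lvl.qW G (Lvl.jj G) * qS Δ ^ 2 =
    qS ((⇑E₄) ^ 3 * (⇑E₆) ^ 2) := by
  have hT : BddPer ((⇑E₄) ^ 3 * (⇑E₆) ^ 2 : ℍ → ℂ) := bddPer_mono 3 2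
  let a : perAlg := Subalgebra.inclusion (Lvl.W_le_perAlg G) (Lvl.jj G)
  have e : a * ⟨_, bddPer_discriminant.mem_perAlg⟩ ^ 2 = ⟨_, hT.mem_perAlg⟩ :=
    Subtype.ext (funext fun z => by
      show (Lvl.jj G : ℍ → ℂ) z * Δ z ^ 2 = E₄ z ^ 3 * E₆ z ^ 2
      exact Lvl.jj_mul_eq G z)
  rw [← qL_eq_qS hT, ← e, map_mul, map_pow, qL_eq_qS bddPer_discriminant]
  rfl

/-- For some `c ≠ 0`, `f E₄ E₆ / (Δ j (j - 1728))` times `θ j` expands as `c f` for every `f`. -/
theorem exists_qW_weightTwo_theta : ∃ c : ℂ, c ≠ 0 ∧ ∀ f : CuspForm G 2,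
    Lvl.qW G (Lvl.weightTwo f) / Lvl.qW G (Lvl.jj G) *
        JAC.thetaSeries (ModularCurve.coeffEmb ℂ ModularCurve.jq) =
      algebraMap ℂ (LaurentSeries ℂ) c * qS ⇑f := by
  obtain ⟨c, hc, hθ⟩ := exists_theta_jq
  refine ⟨c, hc, fun f => ?_⟩
  have hjj : Lvl.qW G (Lvl.jj G) ≠ 0 :=
    (map_ne_zero_iff _ (Lvl.qW_injective G)).mpr (Lvl.jj_ne_zero G)
  have hprod : qS ((⇑E₄) ^ 3 * (⇑E₆) ^ 2) = qS ((⇑E₄) ^ 2 * (⇑E₆) ^ 1) * qS E46 := by
    rw [← qS_mul (bddPer_mono 2 1) bddPer_E46]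
    congr 1
    funext z
    simp only [E46, Pi.mul_apply, Pi.pow_apply]
    ring
  have hξ : ModularCurve.coeffEmb ℂ xiQ * qS Δ = qS E46 := by
    rw [← qS_E46_div, div_mul_cancel₀ _ qS_discriminant_ne_zero]
  have hT := qW_jj_mul G
  rw [hprod, ← hξ] at hT
  rw [Lvl.qW_weightTwo, div_mul_eq_mul_div, div_eq_iff hjj]
  refine mul_right_cancel₀ (pow_ne_zero 2 qS_discriminant_ne_zero) ?_
  linear_combination qS ⇑f * ModularCurve.coeffEmb ℂ xiQ * qS Δ * hθ -
    algebraMap ℂ (LaurentSeries ℂ) c * qS ⇑f * hT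

/-- The differential of a form on `X₀(N)` is, up to a nonzero constant, `f / θ j` on expansions. -/
theorem exists_phiS2_theta (N : ℕ) [NeZero N] : ∃ c : ℂ, c ≠ 0 ∧ ∀ f : CuspForm (Gamma0 N) 2,
    (phiS2 N f : LaurentSeries ℂ) * JAC.thetaSeries (ModularCurve.coeffEmb ℂ ModularCurve.jq) =
      algebraMap ℂ (LaurentSeries ℂ) c * qS ⇑f :=
  let ⟨c, hc, h⟩ := exists_qW_weightTwo_theta (Gamma0 N)
  ⟨c, hc, fun f => by rw [(coe_phiS2 N f).trans rfl]; exact h f⟩

end Fermat.JAC.X0

end
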