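import Fermat.Agent.JAC.X0.ThetaJ
import Fermat.Agent.JAC.X0.HeckeTrace
import Fermat.Agent.JAC.PicLift
import Fermat.Prelude.Thm_UpperHalfPlane_qCoeff_heckeT
import Fermat.Prelude.Thm_UpperHalfPlane_qCoeff_heckeU
import Fermat.Prelude.Def_CuspForm_HeckeAlgebra

/-!
# Regular differentials of `X₀(N)` as cusp forms of weight two

The identification is `eS2`, under which `corrDiff` is `T ℓ` or `U ℓ`.
-/

set_option autoImplicit false

attribute [local instance 10000] SubalgebraClass.toAlgebra HahnSeries.powerSeriesAlgebra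

noncomputable section

open AlgebraicCurve ModularCurve Function
open scoped MatrixGroups

namespace Fermat.JAC.X0

open Fermat.FF Fermat.MC
open UpperHalfPlane hiding I

variable (N : ℕ) [NeZero N]

/-- The constant relating cusp forms and differentials. -/
def thetaConst : ℂ := (exists_phiS2_theta N).choose

/-- The constant `thetaConst N` is nonzero. -/
theorem thetaConst_ne_zero : thetaConst N ≠ 0 := (exists_phiS2_theta N).choose_spec.1

/-- The differential of a cusp form is regular. -/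
theorem isRegularDiff_phiS2 (f : CuspForm (CongruenceSubgroup.Gamma0 N) 2) :
    IsRegularDiff (phiS2 N f • KaehlerDifferential.D ℂ (FN N ℂ) (jL N ℂ)) := by
  intro v
  rcases eq_or_ne (phiS2 N f) 0 with h0 | h0
  · have := (regDiff (FN N ℂ)).zero_mem v
    simpa [h0] using this
  · rw [ordDifferential_smul v h0 (D_jL_ne_zero N)]
    have := ((mem_riemannRochSpace.1 (phiS2_mem N f)) v).le_ord h0
    rw [← canonicalDivisorOf_apply (D_jL_ne_zero N) v,
      show (canonicalDivisorOf (D_jL_ne_zero N)) = divDj N from rfl]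
    omega

/-- `f ↦ f(q) dq/q`. -/
def formDiff : CuspForm (CongruenceSubgroup.Gamma0 N) 2 →ₗ[ℂ] regDiff (FN N ℂ) :=
  (thetaConst N)⁻¹ •
    { toFun := fun f => ⟨_, isRegularDiff_phiS2 N f⟩
      map_add' := fun f g => Subtype.ext (by
        change phiS2 N (f + g) • _ = phiS2 N f • _ + phiS2 N g • _
        rw [map_add, add_smul])
      map_smul' := fun c f => Subtype.ext (by
        change phiS2 N (c • f) • _ = c • (phiS2 N f • _)
        rw [map_smul, smul_assoc]) }

/-- The differential of a form is `thetaConst⁻¹ phiS2 f dj`. -/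
theorem coe_formDiff (f : CuspForm (CongruenceSubgroup.Gamma0 N) 2) :
    (formDiff N f : Ω[FN N ℂ⁄ℂ]) = (thetaConst N)⁻¹ •
      (phiS2 N f • KaehlerDifferential.D ℂ (FN N ℂ) (jL N ℂ)) := rfl

/-- The expansion of the differential of a form. -/
theorem qdiff_formDiff (f : CuspForm (CongruenceSubgroup.Gamma0 N) 2) :
    qdiff (inftyEmb N) (formDiff N f : Ω[FN N ℂ⁄ℂ]) = qS ⇑f := by
  rw [coe_formDiff, map_smul, qdiff_smul_D, inftyEmb_apply, inftyEmb_apply,
    show ((jL N ℂ : FN N ℂ) : LaurentSeries ℂ) = coeffEmb ℂ jq from rfl,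
    (exists_phiS2_theta N).choose_spec.2 f, RED.laurent_smul_def, ← mul_assoc, ← map_mul,
    show (exists_phiS2_theta N).choose = thetaConst N from rfl,
    inv_mul_cancel₀ (thetaConst_ne_zero N), map_one, one_mul]

/-- Different forms give different differentials. -/
theorem formDiff_injective : Injective (formDiff N) := by
  refine (injective_iff_map_eq_zero _).mpr fun f hf => DFunLike.coe_injective ?_
  have h := qdiff_formDiff N f
  rw [hf, Submodule.coe_zero, map_zero] at h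
  exact (qS_eq_zero_iff (bddPer_cuspForm f)).mp h.symm

/-- Every regular differential of `X₀(N)` comes from a cusp form. -/
theorem formDiff_surjective : Surjective (formDiff N) := by
  rintro ⟨ω, hω⟩
  obtain ⟨h, hh⟩ := exists_smul_eq_of_finrank_eq_one IsCurveOver.finrank_kaehler
    (D_jL_ne_zero N) ω
  have hmem : h ∈ riemannRochSpace (divDj N) := mem_riemannRochSpace.2 fun v => by
    rcases eq_or_ne h 0 with h0 | h0
    · rw [h0]; exact ordGE_zero _ _
    · have h1 : 0 ≤ v.ordDifferential ω := hω v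
      rw [← hh, ordDifferential_smul v h0 (D_jL_ne_zero N)] at h1
      refine ordGE_iff.2 (Or.inr ?_)
      rw [show divDj N = canonicalDivisorOf (D_jL_ne_zero N) from rfl,
        canonicalDivisorOf_apply (D_jL_ne_zero N) v]
      omega
  obtain ⟨f, hf⟩ := exists_phiS2_eq N h hmem
  refine ⟨thetaConst N • f, Subtype.ext ?_⟩
  rw [map_smul, Submodule.coe_smul, coe_formDiff, smul_smul,
    mul_inv_cancel₀ (thetaConst_ne_zero N), one_smul, hf]
  exact hh

/-- Weight two cusp forms are the regular differentials. -/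
def eS2 : CuspForm (CongruenceSubgroup.Gamma0 N) 2 ≃ₗ[ℂ] regDiff (FN N ℂ) :=
  LinearEquiv.ofBijective (formDiff N) ⟨formDiff_injective N, formDiff_surjective N⟩

/-- The expansion of the differential of a form. -/
theorem qdiff_eS2 (f : CuspForm (CongruenceSubgroup.Gamma0 N) 2) :
    qdiff (inftyEmb N) (eS2 N f : Ω[FN N ℂ⁄ℂ]) = qS ⇑f :=
  qdiff_formDiff N f

/-- The coefficients of the expansion are the `q`-coefficients. -/
theorem coeff_qS (g : ℍ → ℂ) (n : ℕ) : (qS g).coeff n = ModularFormClass.qCoeff g n := by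
  rw [qS, HahnSeries.ofPowerSeries_apply_coeff]
  rfl

/-- The expansion has no negative coefficients. -/
theorem coeff_qS_neg (g : ℍ → ℂ) {n : ℤ} (hn : n < 0) : (qS g).coeff n = 0 :=
  ModularCurve.ofPowerSeries_coeff_of_neg _ hn

/-- The correspondence `T ℓ` on differentials. -/
def corrDiff (ℓ : ℕ) [NeZero ℓ] : regDiff (FN N ℂ) →ₗ[ℂ] regDiff (FN N ℂ) :=
  (regTrace (heckeBetaBar ℂ N ℓ)).comp (regPull (heckeAlphaBar ℂ N ℓ))

/-- The correspondence at `ℓ` on differentials is the operator with the Hecke effect on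
coefficients. -/
theorem eS2_eq_of_qCoeff {ℓ : ℕ} [NeZero ℓ] (hℓ : ℓ.Prime)
    (f g : CuspForm (CongruenceSubgroup.Gamma0 N) 2)
    (h : ∀ n : ℕ, ModularFormClass.qCoeff ⇑g n = ModularFormClass.qCoeff ⇑f (n * ℓ) +
      if ¬ ℓ ∣ N ∧ ℓ ∣ n then (ℓ : ℂ) * ModularFormClass.qCoeff ⇑f (n / ℓ) else 0) :
    corrDiff N ℓ (eS2 N f) = eS2 N g := by
  refine Subtype.ext (qdiff_injective (inftyEmb N) ?_)
  rw [qdiff_eS2]
  ext n
  rw [corrDiff, LinearMap.comp_apply, coe_regTrace, coe_regPull, qdiff_heckeCorr N ℓ hℓ,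
    qdiff_eS2]
  rcases lt_or_ge n 0 with hn | hn
  · have hl : (0 : ℤ) < ℓ := by exact_mod_cast hℓ.pos
    rw [coeff_qS_neg _ hn, coeff_qS_neg _ (mul_neg_of_pos_of_neg hl hn)]
    by_cases hd : ¬ ℓ ∣ N ∧ (ℓ : ℤ) ∣ n
    · rw [if_pos hd, coeff_qS_neg _ (Int.ediv_neg_of_neg_of_pos hn hl), mul_zero, add_zero]
    · rw [if_neg hd, add_zero]
  · obtain ⟨m, rfl⟩ := Int.eq_ofNat_of_zero_le hn
    rw [show (ℓ : ℤ) * (m : ℤ) = ((m * ℓ : ℕ) : ℤ) by push_cast; ring,
      show (m : ℤ) / (ℓ : ℤ) = ((m / ℓ : ℕ) : ℤ) from (Int.natCast_div m ℓ).symm,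
      coeff_qS, coeff_qS, coeff_qS, h m]
    simp only [Int.natCast_dvd_natCast]

/-- Away from the level the correspondence is `T ℓ`. -/
theorem corrDiff_heckeT {ℓ : ℕ} [NeZero ℓ] (hℓ : ℓ.Prime) (hℓN : ¬ ℓ ∣ N)
    (f : CuspForm (CongruenceSubgroup.Gamma0 N) 2) :
    corrDiff N ℓ (eS2 N f) = eS2 N (CuspForm.heckeTLin 2 hℓ hℓN f) := by
  refine eS2_eq_of_qCoeff N hℓ f _ fun n => ?_
  obtain ⟨hd, hp, hb⟩ := bddPer_cuspForm f
  rw [CuspForm.coe_heckeTLin_apply,
    UpperHalfPlane.qCoeff_heckeT (by exact_mod_cast hp) hd hb 2 hℓ.ne_zero n,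
    ModularForm.coeffHeckeT_apply]
  norm_num [hℓN]

/-- At the level the correspondence is `U ℓ`. -/
theorem corrDiff_heckeU {ℓ : ℕ} [NeZero ℓ] (hℓ : ℓ.Prime) (hℓN : ℓ ∣ N)
    (f : CuspForm (CongruenceSubgroup.Gamma0 N) 2) :
    corrDiff N ℓ (eS2 N f) = eS2 N (CuspForm.heckeULin 2 hℓN f) := by
  refine eS2_eq_of_qCoeff N hℓ f _ fun n => ?_
  obtain ⟨hd, hp, hb⟩ := bddPer_cuspForm f
  rw [CuspForm.coe_heckeULin_apply,
    UpperHalfPlane.qCoeff_heckeU (by exact_mod_cast hp) hd hb 2 hℓ.ne_zero n,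
    ModularForm.coeffHeckeU_apply]
  simp [hℓN]

end Fermat.JAC.X0

end
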