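import Fermat.Agent.MC.X0.Field

/-!
# Atkin-Lehner substitutions on the modular function field

A self-map of `ℍ` permuting the functions `j (d z)`, `d ∣ N`, gives an endomorphism of the
function field generated by their expansions.
-/

set_option autoImplicit false

noncomputable section

open IntermediateField ModularCurve
open scoped MatrixGroups

namespace Fermat.JAC

section Gens

variable {L E F' : Type*} [Field L] [Field E] [Algebra L E] [Field F'] [Algebra L F']
  {I : Type*} (K : IntermediateField L E) (x : I → K)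

/-- A substitution of generators preserving the relations extends to the field. -/
theorem exists_algHom_of_gens (hK : K = adjoin L (Set.range fun i => (x i : E))) (y : I → F')
    (hker : ∀ P : MvPolynomial I L, MvPolynomial.aeval x P = 0 ↔ MvPolynomial.aeval y P = 0) :
    ∃ φ : K →ₐ[L] F', ∀ i, φ (x i) = y i := by
  let e := MvPolynomial.aeval (R := L) x
  let A := e.range
  -- `K` is the fraction field of the algebra generated by the `x i`
  have hfrac : IsFractionRing A K := .of_field _ _ fun z => by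
    have hz : (z : E) ∈ adjoin L (Set.range fun i => (x i : E)) := hK ▸ z.2
    obtain ⟨r, hr, s, hs, hrs⟩ := mem_adjoin_iff_div.mp hz
    rw [Algebra.adjoin_range_eq_range_aeval, AlgHom.mem_range] at hr hs
    obtain ⟨P, rfl⟩ := hr
    obtain ⟨Q, rfl⟩ := hs
    have hc : ∀ R : MvPolynomial I L,
        ((e R : K) : E) = MvPolynomial.aeval (fun i => (x i : E)) R := fun R => by
      rw [MvPolynomial.aeval_def, MvPolynomial.aeval_def]
      exact MvPolynomial.eval₂_comp_left K.val.toRingHom _ x R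
    refine ⟨⟨e P, P, rfl⟩, ⟨e Q, Q, rfl⟩, Subtype.ext ?_⟩
    change (z : E) = ((e P : K) : E) / ((e Q : K) : E)
    rw [hc, hc]
    exact hrs
  -- the substitution is an injective map on that algebra, as the relations agree
  let g : A →ₐ[L] F' :=
    (Ideal.Quotient.liftₐ (RingHom.ker e) (MvPolynomial.aeval y)
      fun P hP => (hker P).mp (RingHom.mem_ker.mp hP)).comp
      (Ideal.quotientKerEquivRange e).symm.toAlgHom
  have hg : ∀ P, g ⟨e P, P, rfl⟩ = MvPolynomial.aeval y P := fun P => by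
    simp only [g, AlgHom.comp_apply, AlgEquiv.coe_toAlgHom, AlgEquiv.coe_toAlgHom]
    rw [show (Ideal.quotientKerEquivRange e).symm ⟨e P, P, rfl⟩ = Ideal.Quotient.mk _ P from
      (Ideal.quotientKerEquivRange e).symm_apply_eq.mpr (Subtype.ext rfl)]
    rfl
  have hinj : Function.Injective g := by
    rw [injective_iff_map_eq_zero]
    rintro ⟨z, hzA⟩ hz
    obtain ⟨P, rfl⟩ : ∃ P, e P = z := hzA
    rw [hg] at hz
    exact Subtype.ext ((hker P).mpr hz)
  -- it extends to the fraction field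
  refine ⟨IsFractionRing.liftAlgHom hinj, fun i => ?_⟩
  have hxi : x i = algebraMap A K ⟨e (MvPolynomial.X i), _, rfl⟩ :=
    (MvPolynomial.aeval_X x i).symm
  rw [hxi, IsFractionRing.liftAlgHom_apply, IsFractionRing.lift_algebraMap]
  exact (hg _).trans (MvPolynomial.aeval_X y i)

attribute [local instance 10000] SubalgebraClass.toAlgebra HahnSeries.powerSeriesAlgebra

end Gens

namespace X0

open Fermat.MC UpperHalfPlane
open CongruenceSubgroup (Gamma0)

/-- The divisors of `M`, indexing the generators. -/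
abbrev DivIdx (M : ℕ) : Type := {d : ℕ // d ∈ M.divisors}

variable {M : ℕ}

/-- A divisor of the level is a nonzero natural number. -/
instance neZeroDivIdx (d : DivIdx M) : NeZero (d : ℕ) :=
  ⟨(Nat.pos_of_mem_divisors d.2).ne'⟩

/-- An index divides the level. -/
theorem DivIdx.dvd (d : DivIdx M) : (d : ℕ) ∣ M := Nat.dvd_of_mem_divisors d.2

variable [NeZero M] (L : Type*) [Field L] [Algebra ℚ L]

/-- `j (d z)` in the function field. -/
def jdL (d : DivIdx M) : FN M L :=
  ⟨coeffEmb L (qExpand ℚ (d : ℕ) jq),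
    coeffEmb_mem_laurentBaseChange L (jqd_mem_full M d.dvd)⟩

/-- The field of level `M` is generated by the `j (d z)`, `d ∣ M`. -/
theorem adjoin_jdL : FN M L = adjoin L (Set.range fun d : DivIdx M =>
    (jdL L d : LaurentSeries L)) := by
  refine le_antisymm ?_ (adjoin_le_iff.mpr ?_)
  · change laurentBaseChange L (modularFunctionFieldFull M) ≤ _
    rw [laurentBaseChange, modularFunctionFieldFull, adjoin_le_iff]
    rintro _ ⟨x, hx, rfl⟩
    rw [SetLike.mem_coe] at hx
    induction hx using IntermediateField.adjoin_induction with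
    | mem y hy =>
      obtain ⟨d, hne, hd, rfl⟩ := hy
      exact subset_adjoin L _ ⟨⟨d, Nat.mem_divisors.mpr ⟨hd, NeZero.ne M⟩⟩, rfl⟩
    | algebraMap c =>
      rw [SetLike.mem_coe, show coeffEmb L (algebraMap ℚ (LaurentSeries ℚ) c) =
        algebraMap L (LaurentSeries L) (algebraMap ℚ L c) by
          rw [algebraMap_laurentSeries_eq_single, algebraMap_laurentSeries_eq_single, coeffEmb,
            coeffMap_single]]
      exact IntermediateField.algebraMap_mem _ _
    | add a b _ _ h1 h2 => rw [SetLike.mem_coe, map_add]; exact add_mem h1 h2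
    | inv a _ h1 => rw [SetLike.mem_coe, map_inv₀]; exact inv_mem h1
    | mul a b _ _ h1 h2 => rw [SetLike.mem_coe, map_mul]; exact mul_mem h1 h2
  · rintro _ ⟨d, rfl⟩
    exact (jdL L d).2

variable (M) in
/-- `j (d z)` as a modular function. -/
def jdW (d : DivIdx M) : W M := ⟨jN (d : ℕ), W_le_of_dvd M d.dvd (jN_mem_W (d : ℕ))⟩

variable {L} (ι : L →+* ℂ)

/-- The generator as a meromorphic function. -/
theorem toKW_jdL (d : DivIdx M) :
    toKW M ι (jdL L d) = algebraMap (W M) (Lvl.KW (Gamma0 M)) (jdW M d) := by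
  refine (Lvl.qK (Gamma0 M)).injective ?_
  rw [qK_toKW, Lvl.qK_algebraMap,
    show Lvl.qW (Gamma0 M) (jdW M d) =
      Lvl.qW (Gamma0 (d : ℕ)) ⟨jN (d : ℕ), jN_mem_W _⟩ from rfl, qW_jN]
  exact coeffMap_ι_coeffEmb ι _

include ι in
/-- A relation holds in the function field iff it holds on `ℍ`. -/
theorem aeval_jdL_eq_zero_iff (P : MvPolynomial (DivIdx M) L) :
    MvPolynomial.aeval (fun d => jdL L d) P = 0 ↔
      ∀ z : ℍ, MvPolynomial.eval₂ ι (fun d : DivIdx M => jN (d : ℕ) z) P = 0 := by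
  have h : toKW M ι (MvPolynomial.aeval (fun d => jdL L d) P) =
      algebraMap (W M) (Lvl.KW (Gamma0 M))
        (MvPolynomial.eval₂ ((algebraMap ℂ (W M)).comp ι) (fun d => jdW M d) P) := by
    rw [MvPolynomial.aeval_def, MvPolynomial.eval₂_comp_left, MvPolynomial.eval₂_comp_left]
    congr 1
    · exact RingHom.ext fun c => toKW_algebraMap M ι c
    · exact funext (toKW_jdL ι)
  have hz : ∀ z : ℍ,
      (MvPolynomial.eval₂ ((algebraMap ℂ (W M)).comp ι) (fun d => jdW M d) P : W M).1 z =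
        MvPolynomial.eval₂ ι (fun d : DivIdx M => jN (d : ℕ) z) P := fun z => by
    let ev : W M →+* ℂ := (Pi.evalRingHom (fun _ : ℍ => ℂ) z).comp (W M).val.toRingHom
    change ev _ = _
    rw [MvPolynomial.eval₂_comp_left]
    rfl
  rw [← map_eq_zero (toKW M ι), h,
    map_eq_zero_iff _ (IsFractionRing.injective (W M) (Lvl.KW (Gamma0 M)))]
  constructor
  · intro h0 z
    rw [← hz, h0]
    rfl
  · exact fun h0 => Subtype.ext (funext fun z => (hz z).trans (h0 z))

include ι in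
/-- A map of `ℍ` permuting the `j (d z)` gives an endomorphism of the function field. -/
theorem exists_algHom_of_perm (π : DivIdx M → DivIdx M) (hπ : ∀ d, π (π d) = d) (g : ℍ → ℍ)
    (hg : ∀ (d : DivIdx M) z, jN (d : ℕ) (g z) = jN ((π d : DivIdx M) : ℕ) z) :
    ∃ φ : FN M L →ₐ[L] FN M L, (∀ d, φ (jdL L d) = jdL L (π d)) ∧ ∀ x, φ (φ x) = x := by
  have hone : ∀ P : MvPolynomial (DivIdx M) L, MvPolynomial.aeval (fun d => jdL L d) P = 0 →
      MvPolynomial.aeval (fun d => jdL L (π d)) P = 0 := by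
    intro P h
    have h' := (aeval_jdL_eq_zero_iff ι P).mp h
    change MvPolynomial.aeval ((fun d => jdL L d) ∘ π) P = 0
    rw [← MvPolynomial.aeval_rename, aeval_jdL_eq_zero_iff ι]
    intro z
    rw [MvPolynomial.eval₂_rename]
    simpa only [Function.comp_def, hg] using h' (g z)
  obtain ⟨φ, hφ⟩ := exists_algHom_of_gens (FN M L) (jdL L) (adjoin_jdL L) (fun d => jdL L (π d))
    fun P => ⟨hone P, fun h => by
      have h1 : MvPolynomial.aeval (fun d => jdL L d) (MvPolynomial.rename π P) = 0 := by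
        rw [MvPolynomial.aeval_rename]; exact h
      have h2 := hone _ h1
      rw [MvPolynomial.aeval_rename] at h2
      simpa only [Function.comp_def, hπ] using h2⟩
  refine ⟨φ, hφ, fun x => ?_⟩
  obtain ⟨x, hx⟩ := x
  have hx' : x ∈ adjoin L (Set.range fun d : DivIdx M => (jdL L d : LaurentSeries L)) := by
    rw [← adjoin_jdL]; exact hx
  let S : IntermediateField L (FN M L) :=
    { AlgHom.equalizer (φ.comp φ) (AlgHom.id L _) with
      inv_mem' := fun a ha => by
        change φ (φ a⁻¹) = a⁻¹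
        rw [map_inv₀, map_inv₀, show φ (φ a) = a from ha] }
  have hle : adjoin L (Set.range fun d : DivIdx M => (jdL L d : LaurentSeries L)) ≤
      S.map (FN M L).val := adjoin_le_iff.mpr (by
    rintro _ ⟨d, rfl⟩
    exact ⟨jdL L d, by change φ (φ (jdL L d)) = jdL L d; rw [hφ, hφ, hπ], rfl⟩)
  obtain ⟨a, ha, hax⟩ := hle hx'
  rw [show (⟨x, hx⟩ : FN M L) = a from Subtype.ext hax.symm]
  exact ha

/-- `j (d z)` evaluated through the point `d z`. -/
theorem jN_eq (d : ℕ) [NeZero d] (z w : ℍ) (h : (w : ℂ) = (d : ℂ) * z) : jN d z = jA w := by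
  change jA (affH (posN d) 0 z) = jA w
  congr 1
  refine UpperHalfPlane.ext ?_
  rw [coe_affH, h]
  simp [posN]

/-- The denominator of the Möbius formula does not vanish. -/
theorem sl_denom_ne_zero (γ : SL(2, ℤ)) (z : ℍ) : ((γ 1 0 : ℂ) * z + γ 1 1) ≠ 0 := fun h => by
  have := (γ • z).im_pos
  rw [← UpperHalfPlane.coe_im, coe_sl_smul, h, div_zero] at this
  simp at this

/-- Comparison of `j (d z)` along a matrix identity. -/
theorem jN_transform (d d' : ℕ) [NeZero d] [NeZero d'] (γ γ' : SL(2, ℤ)) (m : ℕ) [NeZero m]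
    (h01 : (d : ℤ) * γ 0 0 * m * γ' 1 1 + (d : ℤ) * γ 0 1 * γ' 1 0 * d' =
      γ' 0 0 * d' * γ 1 1 + γ' 0 1 * (γ 1 0 * m))
    (h11 : (d : ℤ) * γ 0 1 * γ' 1 1 = γ' 0 1 * γ 1 1)
    (h00' : (d : ℤ) * γ 0 0 * m * γ' 1 0 * d' = γ' 0 0 * d' * (γ 1 0 * m)) (z : ℍ) :
    jN d (γ • affH (posN m) 0 z) = jN d' z := by
  rw [jN_eq d' z (affH (posN d') 0 z) (by rw [coe_affH]; simp [posN]), ← jA_smul γ']
  refine jN_eq d _ _ ?_
  have h1 := sl_denom_ne_zero γ (affH (posN m) 0 z)
  have h2 := sl_denom_ne_zero γ' (affH (posN d') 0 z)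
  rw [coe_sl_smul, coe_sl_smul]
  simp only [coe_affH, posN] at h1 h2 ⊢
  push_cast at h1 h2 ⊢
  simp only [add_zero] at h1 h2 ⊢
  rw [mul_div_assoc', div_eq_div_iff h2 h1]
  have e00 := congrArg (fun t : ℤ => (t : ℂ)) h00'
  have e01 := congrArg (fun t : ℤ => (t : ℂ)) h01
  have e11 := congrArg (fun t : ℤ => (t : ℂ)) h11
  push_cast at e00 e01 e11
  linear_combination -((z : ℂ) ^ 2) * e00 - (z : ℂ) * e01 - e11

/-- Maps agreeing on constants and generators are equal. -/
theorem ringHom_ext_jdL {R : Type*} [Field R] {φ ψ : FN M L →+* R}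
    (hc : ∀ c, φ (algebraMap L (FN M L) c) = ψ (algebraMap L (FN M L) c))
    (hj : ∀ d, φ (jdL L d) = ψ (jdL L d)) (x : FN M L) : φ x = ψ x := by
  obtain ⟨x, hx⟩ := x
  have hx' : x ∈ adjoin L (Set.range fun d : DivIdx M => (jdL L d : LaurentSeries L)) := by
    rw [← adjoin_jdL]; exact hx
  let S : IntermediateField L (FN M L) :=
    (φ.eqLocusField ψ).toIntermediateField hc
  have hle : adjoin L (Set.range fun d : DivIdx M => (jdL L d : LaurentSeries L)) ≤
      S.map (FN M L).val := adjoin_le_iff.mpr (by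
    rintro _ ⟨d, rfl⟩
    exact ⟨jdL L d, hj d, rfl⟩)
  obtain ⟨a, ha, hax⟩ := hle hx'
  rw [show (⟨x, hx⟩ : FN M L) = a from Subtype.ext hax.symm]
  exact ha

variable (M) in
/-- `d ↦ M / d`. -/
def frickePerm (d : DivIdx M) : DivIdx M :=
  ⟨M / d, Nat.mem_divisors.mpr ⟨Nat.div_dvd_of_dvd d.dvd, NeZero.ne M⟩⟩

/-- `d ↦ M / d` is an involution. -/
theorem frickePerm_frickePerm (d : DivIdx M) : frickePerm M (frickePerm M d) = d :=
  Subtype.ext (Nat.div_div_self d.dvd (NeZero.ne M))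

/-- The Fricke substitution sends `j (d z)` to `j ((M / d) z)`. -/
theorem jN_fricke (d : DivIdx M) (z : ℍ) :
    jN (d : ℕ) (ModularGroup.S • affH (posN M) 0 z) = jN ((frickePerm M d : DivIdx M) : ℕ) z := by
  have h : ((d : ℕ) : ℤ) * ((M / (d : ℕ) : ℕ) : ℤ) = (M : ℤ) := by
    exact_mod_cast Nat.mul_div_cancel' d.dvd
  refine jN_transform _ _ ModularGroup.S ModularGroup.S M ?_ ?_ ?_ z <;>
    simp [ModularGroup.S, frickePerm, -Int.natCast_ediv]
  linarith

/-- `d ↦ d ℓ`, `d ℓ ↦ d`. -/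
def swapPerm {N ℓ : ℕ} [NeZero N] [NeZero ℓ] (hℓ : ℓ.Prime)
    (d : DivIdx (N * ℓ)) : DivIdx (N * ℓ) :=
  if h : ℓ ∣ (d : ℕ) then
    ⟨d / ℓ, Nat.mem_divisors.mpr ⟨(Nat.div_dvd_of_dvd h).trans d.dvd, NeZero.ne _⟩⟩
  else
    ⟨d * ℓ, Nat.mem_divisors.mpr
      ⟨Nat.mul_dvd_mul_right (((hℓ.coprime_iff_not_dvd.mpr h).symm).dvd_of_dvd_mul_right d.dvd) ℓ,
        NeZero.ne _⟩⟩

/-- The swap is an involution. -/
theorem swapPerm_swapPerm {N ℓ : ℕ} [NeZero N] [NeZero ℓ] (hℓ : ℓ.Prime) (hℓN : ¬ ℓ ∣ N)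
    (d : DivIdx (N * ℓ)) : swapPerm hℓ (swapPerm hℓ d) = d := by
  by_cases h : ℓ ∣ (d : ℕ)
  · have h2 : ¬ ℓ ∣ (d : ℕ) / ℓ := fun h2 => hℓN <| by
      have h3 : ℓ * ℓ ∣ N * ℓ := ((Nat.dvd_div_iff_mul_dvd h).mp h2).trans d.dvd
      exact Nat.dvd_of_mul_dvd_mul_right hℓ.pos h3
    apply Subtype.ext
    rw [swapPerm, dif_neg (by rw [swapPerm, dif_pos h]; exact h2)]
    simp only [swapPerm, dif_pos h]
    exact Nat.div_mul_cancel h
  · apply Subtype.ext
    rw [swapPerm, dif_pos (by rw [swapPerm, dif_neg h]; exact dvd_mul_left ℓ _)]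
    simp only [swapPerm, dif_neg h]
    exact Nat.mul_div_cancel _ hℓ.pos

/-- An Atkin–Lehner substitution at `ℓ ∤ N` swaps `j (d z)` and `j (ℓ d z)`. -/
theorem exists_swap_map {N ℓ : ℕ} [NeZero N] [NeZero ℓ] (hℓ : ℓ.Prime) (hℓN : ¬ ℓ ∣ N) :
    ∃ g : ℍ → ℍ, ∀ (d : DivIdx (N * ℓ)) z,
      jN (d : ℕ) (g z) = jN ((swapPerm hℓ d : DivIdx (N * ℓ)) : ℕ) z := by
  have hco : IsCoprime (ℓ : ℤ) (N : ℤ) :=
    Nat.isCoprime_iff_coprime.mpr (hℓ.coprime_iff_not_dvd.mpr hℓN)
  obtain ⟨w, v, hwv⟩ := hco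
  let γ : SL(2, ℤ) := ⟨!![1, -v; (N : ℤ), ℓ * w], by
    rw [Matrix.det_fin_two_of]; linear_combination hwv⟩
  refine ⟨fun z => γ • affH (posN ℓ) 0 z, fun d z => ?_⟩
  by_cases h : ℓ ∣ (d : ℕ)
  · obtain ⟨e, he⟩ := h
    have hd : ((swapPerm hℓ d : DivIdx (N * ℓ)) : ℕ) = e := by
      simp only [swapPerm, dif_pos (Dvd.intro e he.symm)]
      rw [he, Nat.mul_div_cancel_left _ hℓ.pos]
    obtain ⟨f, hf⟩ : e ∣ N := by
      have := d.dvd
      rw [he, Nat.mul_comm N ℓ] at this
      exact (Nat.mul_dvd_mul_iff_left hℓ.pos).mp this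
    let γ' : SL(2, ℤ) := ⟨!![(ℓ : ℤ), -v * e; (f : ℤ), w], by
      rw [Matrix.det_fin_two_of]
      have : (N : ℤ) = e * f := by exact_mod_cast hf
      linear_combination hwv - v * this⟩
    have hN : (N : ℤ) = e * f := by exact_mod_cast hf
    have hde : ((d : ℕ) : ℤ) = ℓ * e := by exact_mod_cast he
    refine jN_transform _ _ γ γ' ℓ ?_ ?_ ?_ z <;> simp [γ, γ', hd, hde, hN] <;> ring
  · have hdN : (d : ℕ) ∣ N := ((hℓ.coprime_iff_not_dvd.mpr h).symm).dvd_of_dvd_mul_right d.dvd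
    have hd : ((swapPerm hℓ d : DivIdx (N * ℓ)) : ℕ) = (d : ℕ) * ℓ := by
      simp only [swapPerm, dif_neg h]
    obtain ⟨f, hf⟩ := hdN
    have hN : (N : ℤ) = (d : ℕ) * f := by exact_mod_cast hf
    let γ' : SL(2, ℤ) := ⟨!![1, -v * (d : ℕ); (f : ℤ), ℓ * w], by
      rw [Matrix.det_fin_two_of]
      linear_combination hwv - v * hN⟩
    refine jN_transform _ _ γ γ' ℓ ?_ ?_ ?_ z <;> simp [γ, γ', hd, hN] <;>
      first | ring1 | (left; ring1)

end X0

end Fermat.JAC

end
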