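import Fermat.Agent.JAC.HeckeLattice
import Fermat.Agent.JAC.X0.Act
import Fermat.Agent.GR.ES.Gamma0

/-!
# The period lattice of `X₀(N)` as a Hecke module

It contains a free module of rank two with finite index, and it gives the `p`-power torsion of
`J₀(N)(ℚ̄)`.
-/

set_option autoImplicit false

attribute [local instance 10000] SubalgebraClass.toAlgebra HahnSeries.powerSeriesAlgebra

noncomputable section

open AlgebraicCurve ModularCurve Function

namespace Fermat.JAC.X0

open Fermat.MC
open Fermat.GR (FullHecke)

local notation "S2" N:max => CuspForm (CongruenceSubgroup.Gamma0 N) 2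

variable (N : ℕ) [NeZero N]

/-- A Hecke operator as an endomorphism of cusp forms. -/
abbrev endOf (t : FullHecke N) : Module.End ℂ (S2 N) := t

/-- A form whose images all have vanishing first coefficient is zero. -/
theorem eq_zero_of_forall_cfC_one (f : S2 N)
    (h : ∀ t : FullHecke N, cfC N 2 1 (endOf N t f) = 0) : f = 0 := by
  suffices key : ∀ (n : ℕ) (g : S2 N), (∀ t : FullHecke N, cfC N 2 1 (endOf N t g) = 0) →
      cfC N 2 n g = 0 from eq_zero_of_cfC fun n _ => key n f h
  intro n
  induction n using Nat.strong_induction_on with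
  | _ n ih =>
    intro g hg
    rcases eq_or_ne n 0 with rfl | hn0
    · rw [cfC_apply]
      exact CuspFormClass.qExpansion_coeff_zero g one_pos
        (CongruenceSubgroup.one_mem_strictPeriods_Gamma0 N)
    rcases eq_or_ne n 1 with rfl | hn1
    · simpa using hg 1
    obtain ⟨hp, hpn⟩ : n.minFac.Prime ∧ n.minFac ∣ n := ⟨Nat.minFac_prime hn1, n.minFac_dvd⟩
    set p := n.minFac
    obtain ⟨m, hm⟩ := hpn
    have hm0 : m ≠ 0 := by rintro rfl; simp at hm; exact hn0 hm
    have hlt : m < n := by rw [hm]; exact lt_mul_of_one_lt_left hm0.bot_lt hp.one_lt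
    have hmove : ∀ s : FullHecke N, ∀ t : FullHecke N,
        cfC N 2 1 (endOf N t (endOf N s g)) = 0 := fun s t => hg (t * s)
    obtain ⟨hd, hper, hb⟩ := bddPer_cuspForm g
    by_cases hpN : p ∣ N
    · have h1 := ih m hlt _ (hmove (CuspForm.heckeAlgebra.U hp hpN (Set.notMem_empty p)))
      rw [cfC_apply, endOf, CuspForm.heckeAlgebra.coe_U, CuspForm.coe_heckeULin_apply,
        UpperHalfPlane.qCoeff_heckeU (by exact_mod_cast hper) hd hb 2 hp.ne_zero,
        ModularForm.coeffHeckeU_apply, mul_comm, ← hm, ← cfC_apply] at h1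
      exact h1
    · have h1 := ih m hlt _ (hmove (CuspForm.heckeAlgebra.T hp hpN (Set.notMem_empty p)))
      rw [cfC_apply, endOf, CuspForm.heckeAlgebra.coe_T, CuspForm.coe_heckeTLin_apply,
        UpperHalfPlane.qCoeff_heckeT (by exact_mod_cast hper) hd hb 2 hp.ne_zero,
        ModularForm.coeffHeckeT_apply, mul_comm m p, ← hm, ← cfC_apply, ← cfC_apply,
        ih (m / p) ((Nat.div_le_self _ _).trans_lt hlt) g hg, mul_zero, ite_self, add_zero] at h1
      exact h1

/-- An integral form has an integral first coefficient. -/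
theorem exists_int_cfC_one {f : S2 N} (hf : f ∈ CuspForm.intLattice N 2) :
    ∃ m : ℤ, cfC N 2 1 f = m := by
  unfold CuspForm.intLattice at hf
  induction hf using Submodule.span_induction with
  | mem g hg =>
    obtain ⟨m, hm⟩ := hg 1
    exact ⟨m, (cfC_apply 1 g).trans hm⟩
  | zero => exact ⟨0, by simp⟩
  | add g g' _ _ h h' =>
    obtain ⟨m, hm⟩ := h
    obtain ⟨m', hm'⟩ := h'
    exact ⟨m + m', by rw [map_add, hm, hm', Int.cast_add]⟩
  | smul c g _ h =>
    obtain ⟨m, hm⟩ := h
    exact ⟨c * m, by rw [map_zsmul, hm, zsmul_eq_mul, Int.cast_mul]⟩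

/-- The rank of the Hecke algebra is at most the dimension of the forms. -/
theorem finrank_hecke_le :
    Module.finrank ℤ (FullHecke N) ≤ Module.finrank ℂ (S2 N) := by
  classical
  have := finiteDimensional_cuspForm (N := N) (k := (2 : ℤ))
  obtain ⟨b, hbL, hspan, hli⟩ :=
    exists_linearIndependent ℂ (CuspForm.intLattice N 2 : Set (S2 N))
  have : Finite b := hli.finite_of_isNoetherian
  have : Fintype b := Fintype.ofFinite b
  rw [span_intLattice_eq_top N 2] at hspan
  let β : Module.Basis b ℂ (S2 N) := Module.Basis.mk hli (by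
    rw [Subtype.range_coe]
    exact hspan.ge)
  choose a ha using fun (t : FullHecke N) (f : b) => exists_int_cfC_one N
    (CuspForm.mem_intLattice_of_mem_heckeAlgebra (by norm_num) t.2 (hbL f.2))
  let A : FullHecke N →+ (b → ℤ) := AddMonoidHom.mk' a fun s t => funext fun f => by
    refine Int.cast_injective (α := ℂ) ?_
    rw [Pi.add_apply, Int.cast_add, ← ha, ← ha, ← ha]
    exact map_add _ _ _
  have hA : Injective A.toIntLinearMap := by
    refine (injective_iff_map_eq_zero _).mpr fun t ht => ?_
    have h1 : (cfC N 2 1).comp (endOf N t) = 0 := β.ext fun f => by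
      rw [Module.Basis.mk_apply, LinearMap.comp_apply, LinearMap.zero_apply]
      refine (ha t f).trans ?_
      rw [show a t f = 0 from congrFun ht f, Int.cast_zero]
    refine Subtype.ext (LinearMap.ext fun f => ?_)
    refine eq_zero_of_forall_cfC_one N _ fun s => ?_
    change cfC N 2 1 (endOf N (s * t) f) = 0
    rw [mul_comm]
    exact LinearMap.congr_fun h1 (endOf N s f)
  calc Module.finrank ℤ (FullHecke N) ≤ Module.finrank ℤ (b → ℤ) :=
        LinearMap.finrank_le_finrank_of_injective hA
    _ = Module.finrank ℂ (S2 N) := by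
        rw [Module.finrank_pi, Module.finrank_eq_card_basis β]

/-- The first coefficient, as a functional on differentials. -/
def coeffOne : DiffDual (FN N ℂ) := (cfC N 2 1).comp (eS2 N).symm.toLinearMap

/-- A transposed operator on the first-coefficient functional. -/
theorem dualOp_coeffOne_apply (t : Module.End ℂ (S2 N)) (ω : regDiff (FN N ℂ)) :
    dualOp N t (coeffOne N) ω = cfC N 2 1 (t ((eS2 N).symm ω)) := by
  rw [dualOp_apply, coeffOne, LinearMap.comp_apply, LinearEquiv.coe_coe,
    LinearEquiv.symm_apply_apply]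

/-- The orbit map of the first coefficient. -/
def orbitOne : FullHecke N →+ DiffDual (FN N ℂ) :=
  AddMonoidHom.mk' (fun t => dualOp N (endOf N t) (coeffOne N))
    fun s t => LinearMap.congr_fun (dualOp_add N (endOf N s) (endOf N t)) _

/-- The first-coefficient functionals of a basis of the Hecke algebra span the dual. -/
theorem span_orbitOne {ι : Type*} [Fintype ι] (τ : Module.Basis ι ℤ (FullHecke N)) :
    Submodule.span ℂ (Set.range fun j => orbitOne N (τ j)) = ⊤ := by
  set W : Subspace ℂ (Module.Dual ℂ (regDiff (FN N ℂ))) :=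
    Submodule.span ℂ (Set.range fun j => orbitOne N (τ j)) with hW
  have hmem : ∀ t, orbitOne N t ∈ W := fun t => by
    rw [← τ.sum_repr t, map_sum]
    refine Submodule.sum_mem _ fun j _ => ?_
    rw [map_zsmul, ← Int.cast_smul_eq_zsmul ℂ]
    exact W.smul_mem _ (Submodule.subset_span ⟨j, rfl⟩)
  have hco : W.dualCoannihilator = ⊥ := by
    refine (Submodule.eq_bot_iff _).mpr fun ω hω => ?_
    rw [← (eS2 N).apply_symm_apply ω, eq_zero_of_forall_cfC_one N ((eS2 N).symm ω) fun t => ?_,
      map_zero]
    rw [← dualOp_coeffOne_apply]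
    exact (Submodule.mem_dualCoannihilator ω).mp hω _ (hmem t)
  have h := Subspace.finrank_add_finrank_dualCoannihilator_eq W
  rw [hco, finrank_bot, add_zero] at h
  exact Submodule.eq_top_of_finrank_eq (h.trans Subspace.dual_finrank_eq.symm)

/-- The Hecke algebra has rank the genus. -/
theorem finrank_hecke :
    Module.finrank ℤ (FullHecke N) = genusFF ℂ (FN N ℂ) := by
  refine le_antisymm ((finrank_hecke_le N).trans_eq (finrank_cuspForm_two N)) ?_
  have h := finrank_range_le_card (R := ℂ)
    (b := fun j => orbitOne N (Module.finBasis ℤ (FullHecke N) j))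
  rw [Set.finrank, span_orbitOne N (Module.finBasis ℤ (FullHecke N)), finrank_top,
    Fintype.card_fin, show Module.finrank ℂ (DiffDual (FN N ℂ)) =
      Module.finrank ℂ (regDiff (FN N ℂ)) from Subspace.dual_finrank_eq,
    finrank_regDiff] at h
  exact h

/-- The periods form a Hecke module. -/
instance periodsModule : Module (FullHecke N) (periods (FN N ℂ)) where
  smul t l := ⟨dualOp N (endOf N t) l.1, apply_mem_periods (dualHecke N t).2 l.2⟩
  one_smul l := Subtype.ext (LinearMap.congr_fun (dualOp_one N) l.1)
  mul_smul s t l := Subtype.ext (by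
    change dualOp N (endOf N (s * t)) l.1 = dualOp N (endOf N s) (dualOp N (endOf N t) l.1)
    rw [mul_comm s t]
    exact LinearMap.congr_fun (dualOp_mul N _ _) _)
  smul_zero t := Subtype.ext (map_zero (dualOp N (endOf N t)))
  smul_add t l m := Subtype.ext (map_add (dualOp N (endOf N t)) _ _)
  add_smul s t l := Subtype.ext (LinearMap.congr_fun (dualOp_add N (endOf N s) (endOf N t)) l.1)
  zero_smul l := Subtype.ext (LinearMap.congr_fun (dualOp_zero N) l.1)

/-- The module structure is transposition. -/
theorem coe_periods_smul (t : FullHecke N) (l : periods (FN N ℂ)) :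
    ((t • l : periods (FN N ℂ)) : DiffDual (FN N ℂ)) = dualOp N (endOf N t) l := rfl

/-- The period lattice contains a free Hecke module of rank two with finite index. -/
theorem exists_periods_heckeBasis : ∃ k : ℕ, k ≠ 0 ∧ ∃ e : Fin 2 → periods (FN N ℂ),
    LinearIndependent (FullHecke N) e ∧
      ∀ l : periods (FN N ℂ), k • l ∈ Submodule.span (FullHecke N) (Set.range e) := by
  let τ := Module.finBasisOfFinrankEq ℤ (FullHecke N) (finrank_hecke N)
  have hsp := span_orbitOne N τ
  refine exists_periods_basis_of_orbit (coe_periods_smul N) τ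
    (linearIndependent_of_top_le_span_of_card_eq_finrank hsp.ge ?_) hsp
  rw [Fintype.card_fin, finrank_diffDual]

variable (p : ℕ) [hp : Fact p.Prime]

/-- The lattice description of `J₀(N)(ℚ̄)[p^∞]`. -/
def esLattice : Fermat.GR.ESLattice N p where
  act := jAct N
  act_T _ hℓ hℓN x := jAct_T N hℓ hℓN x
  Λ := periods (FN N ℂ)
  π := torsLift Qbar (modularFunctionFieldBar N) (FN N ℂ) p
  exists_π := exists_torsLift Qbar (modularFunctionFieldBar N) (FN N ℂ) p
  π_eq_zero_iff := torsLift_eq_zero_iff Qbar (modularFunctionFieldBar N) (FN N ℂ) p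
  p_smul_π := p_smul_torsLift Qbar (modularFunctionFieldBar N) (FN N ℂ) p
  π_smul n t l :=
    torsLift_apply Qbar (modularFunctionFieldBar N) (FN N ℂ) p (f := dualHecke N t) n l (t • l) rfl
  exists_basis := exists_periods_heckeBasis N

end Fermat.JAC.X0

end
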